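import Mathlib
import Fermat.Agent.LG.USer

/-!
# The eta product: expansions and transformations
-/

set_option autoImplicit false
set_option linter.unusedSectionVars false

noncomputable section

namespace Fermat.Agent.CB

open UpperHalfPlane hiding I J
open ModularForm
open scoped Manifold MatrixGroups ModularForm
open Fermat.Agent.Eis16 Fermat.Agent.ModFun Fermat.Agent.ESCore Fermat.Agent.LG
open Complex (I)

local notation "𝕢" => Function.Periodic.qParam
local notation "Δ" => ModularForm.discriminant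

/-- `∏ (1 - q ^ n)` -/
def EP (τ : ℍ) : ℂ := ∏' n : ℕ, (1 - qN 1 τ ^ (n + 1))

theorem eta_eq (τ : ℍ) : ModularForm.eta τ = 𝕢 24 τ * EP τ := by
  rw [EP, ModularForm.eta, qN_apply, Nat.cast_one]

theorem EP_ne_zero (τ : ℍ) : EP τ ≠ 0 := by
  have h := ModularForm.eta_ne_zero (z := τ) τ.2
  rw [eta_eq] at h
  exact right_ne_zero_of_mul h

theorem hasExp_EP : HasExp (Int.castRingHom ℂ) (qN 1) EP
    (HahnSeries.ofPowerSeries ℤ ℤ ModularCurve.etaProd) :=
  hasExp_ofPowerSeries fun τ _ => hasSum_etaProd (norm_qN_lt 1 τ)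

theorem hasQ_EP : HasQ 1 EP (toC ModularCurve.etaProd) := by
  intro τ
  have h := hasSum_etaProd (norm_qN_lt 1 τ)
  rw [qN_apply, Nat.cast_one] at h
  simp only [coeff_toC]
  rw [EP, qN_apply, Nat.cast_one]
  exact h

theorem mdiff_EP : MDiff EP := hasQ_EP.mdiff one_pos

theorem EP_vadd (τ : ℍ) : EP ((1 : ℝ) +ᵥ τ) = EP τ := by
  have h1 := qN_vadd 1 τ
  rw [Nat.cast_one] at h1
  rw [EP, EP, h1]

/-- Expansion of the inverse. -/
theorem hasExp_inv_of {f : ℍ → ℂ} {P : PowerSeries ℤ}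
    (hf : HasQ 1 f (toC P)) (hT : ∀ τ : ℍ, f ((1 : ℝ) +ᵥ τ) = f τ)
    (hP : PowerSeries.constantCoeff P = 1) (h0 : ∀ τ, f τ ≠ 0) :
    HasQ 1 (fun τ => (f τ)⁻¹) (toC (PowerSeries.invOfUnit P 1)) := by
  have hmd : MDiff (fun τ => (f τ)⁻¹) := (hf.mdiff one_pos).inv h0
  have hper : Function.Periodic ((fun τ : ℍ => (f τ)⁻¹) ∘ ofComplex) (1 : ℝ) := by
    have := ModFun.periodic_ofComplex (f := fun τ : ℍ => (f τ)⁻¹) (h := 1) (by
      intro τ
      rw [hT])
    exact_mod_cast this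
  have hb : IsBoundedAtImInfty (fun τ : ℍ => (f τ)⁻¹) := by
    have h1 := (hf.tendsto one_pos).inv₀ (by
      rw [coeff_toC, PowerSeries.coeff_zero_eq_constantCoeff_apply, hP]
      simp)
    exact h1.isBigO_one ℝ
  have hq := HasQ.of_periodic one_pos hper hmd hb
  have h4 : UpperHalfPlane.qExpansion 1 (fun τ : ℍ => (f τ)⁻¹) =
      toC (PowerSeries.invOfUnit P 1) := by
    have h5 := (hq.mul hf).unique one_pos ((HasQ.one 1).congr (fun τ => by
      simp only [Pi.one_apply, Pi.mul_apply]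
      rw [inv_mul_cancel₀ (h0 τ)]))
    have h6 : toC P * toC (PowerSeries.invOfUnit P 1) = 1 := by
      rw [← map_mul, PowerSeries.mul_invOfUnit _ _ (by rw [hP]; rfl), map_one]
    linear_combination (toC (PowerSeries.invOfUnit P 1)) * h5 -
      (UpperHalfPlane.qExpansion 1 (fun τ : ℍ => (f τ)⁻¹)) * h6
  rwa [h4] at hq

/-! ### transformations of eta -/

theorem eta_add_int (τ : ℍ) (n : ℤ) (z : ℂ) (hz : z = τ + n) :
    ModularForm.eta z = Complex.exp (2 * Real.pi * I * n / 24) * ModularForm.eta τ := by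
  subst hz
  rw [ModularForm.eta, ModularForm.eta]
  have h1 : 𝕢 1 ((τ : ℂ) + n) = 𝕢 1 τ := by
    rw [Function.Periodic.qParam, Function.Periodic.qParam]
    have h2 : 2 * (Real.pi : ℂ) * I * ((τ : ℂ) + n) / (1 : ℝ) =
        2 * (Real.pi : ℂ) * I * τ / (1 : ℝ) + n * (2 * Real.pi * I) := by
      push_cast
      ring
    rw [h2, Complex.exp_add, Complex.exp_int_mul_two_pi_mul_I, mul_one]
  have h2 : 𝕢 24 ((τ : ℂ) + n) = Complex.exp (2 * Real.pi * I * n / 24) * 𝕢 24 τ := by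
    rw [Function.Periodic.qParam, Function.Periodic.qParam, ← Complex.exp_add]
    congr 1
    push_cast
    ring
  simp only [ModularForm.eta_q, h1]
  rw [h2]
  ring

theorem eta_S (τ : ℍ) (z : ℂ) (hz : z = -1 / τ) :
    ModularForm.eta z = (Complex.sqrt I)⁻¹ * (Complex.sqrt τ * ModularForm.eta τ) := by
  subst hz
  exact ModularForm.eta_comp_eq_csqrt_I_inv τ.2

theorem sqrt_mul_nat (p : ℕ) (hp : 0 < p) {z : ℂ} (hz : z ≠ 0) :
    Complex.sqrt (p * z) = Complex.sqrt p * Complex.sqrt z := by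
  have hp0 : (p : ℂ) ≠ 0 := by exact_mod_cast hp.ne'
  rw [_root_.sqrt_eq_exp (mul_ne_zero hp0 hz), _root_.sqrt_eq_exp hp0, _root_.sqrt_eq_exp hz,
    ← Complex.exp_add]
  congr 1
  have h1 := Complex.log_ofReal_mul (r := (p : ℝ)) (by exact_mod_cast hp) hz
  have h2 : Complex.log ((p : ℝ) : ℂ) = ((Real.log (p : ℝ) : ℝ) : ℂ) :=
    (Complex.ofReal_log (by positivity)).symm
  push_cast at h1 h2
  rw [h1, h2]
  ring

theorem sq_sqrt {z : ℂ} : Complex.sqrt z ^ 2 = z := by
  by_cases hz : z = 0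
  · subst hz; simp [Complex.sqrt]
  rw [_root_.sqrt_eq_exp hz, ← Complex.exp_nat_mul]
  have : (2 : ℕ) * (Complex.log z / 2) = Complex.log z := by push_cast; ring
  rw [this, Complex.exp_log hz]

end Fermat.Agent.CB
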