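import Mathlib
import Fermat.Agent.CB.Eta

/-!
# The weight one eta quotient `η(τ)^(pb) / η(pτ)^b`, `(p - 1) b = 2`
-/

set_option autoImplicit false
set_option linter.unusedSectionVars false

noncomputable section

namespace Fermat.Agent.CB

open UpperHalfPlane hiding I J
open ModularForm
open scoped Manifold MatrixGroups ModularForm
open Fermat.Agent.Eis16 Fermat.Agent.ModFun Fermat.Agent.ESCore Fermat.Agent.LG
open CongruenceSubgroup (Gamma0 Gamma0_mem)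
open Complex (I)

local notation "𝕢" => Function.Periodic.qParam
local notation "Δ" => ModularForm.discriminant

variable (p b : ℕ) [NeZero p]

/-- The weight one form. -/
def phi (τ : ℍ) : ℂ := EP τ ^ (p * b) * (EP (tri p 0 1 τ))⁻¹ ^ b

theorem phi_ne_zero (τ : ℍ) : phi p b τ ≠ 0 :=
  mul_ne_zero (pow_ne_zero _ (EP_ne_zero _)) (pow_ne_zero _ (inv_ne_zero (EP_ne_zero _)))

theorem mdiff_phi : MDiff (phi p b) := by
  have h1 : MDiff (fun τ : ℍ => (EP (tri p 0 1 τ))⁻¹) :=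
    MDifferentiable.inv (mdiff_tri p 0 1 mdiff_EP) fun τ => EP_ne_zero _
  exact (mdiff_EP.pow (p * b)).mul (h1.pow b)

theorem phi_mul_eta (τ : ℍ) : phi p b τ * ModularForm.eta (tri p 0 1 τ) ^ b =
    ModularForm.eta τ ^ (p * b) := by
  rw [eta_eq, eta_eq, phi]
  have h1 : 𝕢 24 (tri p 0 1 τ) = 𝕢 24 τ ^ p := by
    rw [Function.Periodic.qParam, Function.Periodic.qParam, ← Complex.exp_nat_mul, coe_tri]
    congr 1
    push_cast
    ring
  have h2 := pow_ne_zero b (EP_ne_zero (tri p 0 1 τ))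
  rw [h1, mul_pow, mul_pow, ← pow_mul, inv_pow]
  field_simp

/-- `phi` near the cusp `0` -/
def phiS (τ : ℍ) : ℂ := ModularForm.eta τ ^ (p * b) / ModularForm.eta (tri 1 0 p τ) ^ b

theorem phiS_ne_zero (τ : ℍ) : phiS p b τ ≠ 0 :=
  div_ne_zero (pow_ne_zero _ (ModularForm.eta_ne_zero τ.2))
    (pow_ne_zero _ (ModularForm.eta_ne_zero (tri 1 0 p τ).2))

variable {p b}

theorem coe_S_smul (τ : ℍ) : ((ModularGroup.S • τ : ℍ) : ℂ) = -1 / τ := by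
  rw [modular_S_smul]
  change (-(τ : ℂ))⁻¹ = _
  rw [neg_div, one_div, inv_neg]

theorem phi_S (hb : p * b = b + 2) (τ : ℍ) :
    phi p b (ModularGroup.S • τ) = (I⁻¹ * Complex.sqrt p ^ b) * τ * phiS p b τ := by
  have h1 := phi_mul_eta p b (ModularGroup.S • τ)
  have h2 := eta_S τ ((ModularGroup.S • τ : ℍ) : ℂ) (coe_S_smul τ)
  have hp0 : (p : ℂ) ≠ 0 := by exact_mod_cast NeZero.ne p
  have hτ0 : (τ : ℂ) ≠ 0 := τ.ne_zero
  have h3 := eta_S (tri 1 0 p τ) ((tri p 0 1 (ModularGroup.S • τ) : ℍ) : ℂ) (by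
    rw [coe_tri, coe_tri, coe_S_smul]
    simp only [Int.cast_zero, Nat.cast_one, add_zero, div_one, one_mul]
    field_simp)
  have h4 : Complex.sqrt (τ : ℂ) = Complex.sqrt p * Complex.sqrt ((tri 1 0 p τ : ℍ) : ℂ) := by
    rw [← sqrt_mul_nat p (Nat.pos_of_ne_zero (NeZero.ne p)) (tri 1 0 p τ).ne_zero]
    congr 1
    rw [coe_tri]
    push_cast
    field_simp
    ring
  have h5 : Complex.sqrt ((tri 1 0 p τ : ℍ) : ℂ) ≠ 0 := by
    intro h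
    have := sq_sqrt (z := ((tri 1 0 p τ : ℍ) : ℂ))
    rw [h] at this
    exact (tri 1 0 p τ).ne_zero (by rw [← this]; simp)
  have h6 : Complex.sqrt I ≠ 0 := by
    intro h
    have := sq_sqrt (z := I)
    rw [h] at this
    exact Complex.I_ne_zero (by rw [← this]; simp)
  have h7 : ModularForm.eta (tri 1 0 p τ) ≠ 0 := ModularForm.eta_ne_zero (tri 1 0 p τ).2
  rw [h2, h3] at h1
  have h8 : (Complex.sqrt I)⁻¹ ^ (p * b) = (Complex.sqrt I)⁻¹ ^ b * I⁻¹ := by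
    rw [hb, pow_add]
    congr 1
    rw [inv_pow, sq_sqrt]
  have h9 : Complex.sqrt (τ : ℂ) ^ (p * b) =
      Complex.sqrt p ^ b * Complex.sqrt ((tri 1 0 p τ : ℍ) : ℂ) ^ b * τ := by
    rw [hb, pow_add, sq_sqrt]
    conv_lhs => rw [h4]
    rw [mul_pow]
  rw [mul_pow, mul_pow, mul_pow, mul_pow, h8, h9] at h1
  rw [phiS]
  have h10 : ((Complex.sqrt I)⁻¹ ^ b * (Complex.sqrt ((tri 1 0 p τ : ℍ) : ℂ) ^ b *
      ModularForm.eta (tri 1 0 p τ) ^ b)) ≠ 0 :=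
    mul_ne_zero (pow_ne_zero _ (inv_ne_zero h6)) (mul_ne_zero (pow_ne_zero _ h5)
      (pow_ne_zero _ h7))
  apply mul_right_cancel₀ h10
  rw [h1]
  have h11 : ModularForm.eta (tri 1 0 p τ) ^ b ≠ 0 := pow_ne_zero _ h7
  field_simp

/-- The multiplier at the second generator. -/
def nu (p : ℕ) : ℂ := Complex.exp (-(2 * Real.pi * I * (p + 1) / 12))

theorem phiS_sub (hb : p * b = b + 2) (τ τ' : ℍ) (h : (τ' : ℂ) = τ + (-(p : ℤ) : ℤ)) :
    phiS p b τ' = nu p * phiS p b τ := by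
  have hp0 : (p : ℂ) ≠ 0 := by exact_mod_cast NeZero.ne p
  have h1 := eta_add_int τ (-(p : ℤ)) τ' h
  have h2 := eta_add_int (tri 1 0 p τ) (-1) (tri 1 0 p τ') (by
    rw [coe_tri, coe_tri, h]
    push_cast
    field_simp
    ring)
  rw [phiS, phiS, h1, h2, mul_pow, mul_pow, ← Complex.exp_nat_mul, ← Complex.exp_nat_mul, nu]
  have h3 : Complex.exp ((p * b : ℕ) * (2 * Real.pi * I * (-(p : ℤ) : ℤ) / 24)) =
      Complex.exp (-(2 * Real.pi * I * (p + 1) / 12)) *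
        Complex.exp ((b : ℕ) * (2 * Real.pi * I * (-1 : ℤ) / 24)) := by
    rw [← Complex.exp_add]
    congr 1
    have hb' : (p : ℂ) * b = b + 2 := by exact_mod_cast hb
    push_cast
    have hb'' : (p : ℂ) * b * p = (b + 2) * p := by rw [hb']
    have h4 : (p : ℂ) * b * (2 * Real.pi * I * (-(p : ℂ)) / 24) =
        -(2 * Real.pi * I / 24) * ((p : ℂ) * b * p) := by ring
    rw [h4, hb'', add_mul, mul_comm (b : ℂ) p, hb']
    ring
  rw [h3]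
  have h4 := Complex.exp_ne_zero ((b : ℕ) * (2 * Real.pi * I * (-1 : ℤ) / 24))
  have h5 : ModularForm.eta (tri 1 0 p τ) ^ b ≠ 0 :=
    pow_ne_zero _ (ModularForm.eta_ne_zero (tri 1 0 p τ).2)
  field_simp

variable (p) in
/-- The second generator of `Γ₀(p)`. -/
def Up : SL(2, ℤ) := ⟨!![1, 0; p, 1], by rw [Matrix.det_fin_two_of]; ring⟩

theorem phi_U (hb : p * b = b + 2) (τ : ℍ) :
    phi p b (Up p • τ) = nu p * ((p : ℂ) * τ + 1) * phi p b τ := by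
  set σ : ℍ := ModularGroup.S • τ with hσ
  have hSσ : ModularGroup.S • σ = τ := by
    apply UpperHalfPlane.ext
    rw [coe_S_smul, hσ, coe_S_smul]
    have := τ.ne_zero
    field_simp
  let σ' : ℍ := (-(p : ℝ)) +ᵥ σ
  have hσ' : (σ' : ℂ) = σ + (-(p : ℤ) : ℤ) := by
    change ((-(p : ℝ) : ℝ) : ℂ) + (σ : ℂ) = _
    push_cast
    ring
  have hτ0 : (τ : ℂ) ≠ 0 := τ.ne_zero
  have hU : Up p • τ = ModularGroup.S • σ' := by
    apply UpperHalfPlane.ext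
    rw [coe_S_smul, hσ', hσ, coe_S_smul, coe_smul_SL]
    have e1 := denom_SL_ne_zero (Up p) τ
    have h00 : ((Up p) 0 0 : ℂ) = 1 := by simp [Up]
    have h01 : ((Up p) 0 1 : ℂ) = 0 := by simp [Up]
    have h10 : ((Up p) 1 0 : ℂ) = p := by simp [Up]
    have h11 : ((Up p) 1 1 : ℂ) = 1 := by simp [Up]
    rw [h10, h11] at e1
    rw [h00, h01, h10, h11]
    have e2 : (-1 / (τ : ℂ) + (-(p : ℤ) : ℤ)) ≠ 0 := by
      have h1 : (σ' : ℂ) ≠ 0 := σ'.ne_zero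
      rw [hσ', hσ, coe_S_smul] at h1
      exact h1
    rw [div_eq_div_iff e1 e2]
    push_cast
    field_simp
    ring
  have h1 := phi_S hb σ'
  have h2 := phi_S hb σ
  rw [hSσ] at h2
  rw [hU, h1, phiS_sub hb σ σ' hσ', h2, hσ']
  have h3 : (σ : ℂ) = -1 / τ := by rw [hσ, coe_S_smul]
  have h4 : (σ : ℂ) + (-(p : ℤ) : ℤ) = ((p : ℂ) * τ + 1) * σ := by
    rw [h3]
    push_cast
    field_simp
    ring
  rw [h4]
  ring

theorem EP_T (k : ℤ) (τ σ : ℍ) (h : (σ : ℂ) = τ + k) : EP σ = EP τ := by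
  have h1 : qN 1 σ = qN 1 τ := by
    rw [qN_apply, qN_apply, Function.Periodic.qParam, Function.Periodic.qParam, h]
    have h2 : 2 * (Real.pi : ℂ) * I * ((τ : ℂ) + k) / ((1 : ℕ) : ℝ) =
        2 * (Real.pi : ℂ) * I * τ / ((1 : ℕ) : ℝ) + k * (2 * Real.pi * I) := by
      push_cast
      ring
    rw [h2, Complex.exp_add, Complex.exp_int_mul_two_pi_mul_I, mul_one]
  rw [EP, EP, h1]

theorem coe_T_zpow_smul (k : ℤ) (τ : ℍ) : ((ModularGroup.T ^ k • τ : ℍ) : ℂ) = τ + k := by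
  rw [modular_T_zpow_smul]
  change ((k : ℝ) : ℂ) + (τ : ℂ) = _
  push_cast
  ring

variable (p b) in
theorem phi_T (k : ℤ) (τ : ℍ) : phi p b (ModularGroup.T ^ k • τ) = phi p b τ := by
  rw [phi, phi, EP_T k τ _ (coe_T_zpow_smul k τ), EP_T (p * k) (tri p 0 1 τ) (tri p 0 1 _)]
  rw [coe_tri, coe_tri, coe_T_zpow_smul]
  push_cast
  ring

/-! ### The transformation under `Γ₀(p)` -/

/-- The transformation law with multiplier `c`. -/
def TL (p b : ℕ) [NeZero p] (γ : SL(2, ℤ)) (c : ℂ) : Prop :=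
  ∀ τ : ℍ, phi p b (γ • τ) = c * ((γ 1 0 : ℂ) * τ + γ 1 1) * phi p b τ

theorem coc (γ δ : SL(2, ℤ)) (τ : ℍ) :
    (((γ * δ) 1 0 : ℤ) : ℂ) * τ + ((γ * δ) 1 1 : ℤ) =
      ((γ 1 0 : ℂ) * (δ • τ : ℍ) + γ 1 1) * ((δ 1 0 : ℂ) * τ + δ 1 1) := by
  have e := denom_SL_ne_zero δ τ
  rw [coe_smul_SL]
  have h1 : (γ * δ) 1 0 = γ 1 0 * δ 0 0 + γ 1 1 * δ 1 0 := by
    rw [Matrix.SpecialLinearGroup.coe_mul, Matrix.mul_apply, Fin.sum_univ_two]
  have h2 : (γ * δ) 1 1 = γ 1 0 * δ 0 1 + γ 1 1 * δ 1 1 := by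
    rw [Matrix.SpecialLinearGroup.coe_mul, Matrix.mul_apply, Fin.sum_univ_two]
  rw [h1, h2]
  push_cast
  field_simp
  ring

theorem TL.mul {γ δ : SL(2, ℤ)} {c d : ℂ} (h1 : TL p b γ c) (h2 : TL p b δ d) :
    TL p b (γ * δ) (c * d) := by
  intro τ
  rw [mul_smul, h1, h2, coc]
  ring

theorem TL.inv {γ : SL(2, ℤ)} {c : ℂ} (h : TL p b γ c) : TL p b γ⁻¹ c⁻¹ := by
  intro τ
  have h1 := h (γ⁻¹ • τ)
  rw [smul_inv_smul] at h1
  have h2 := coc γ γ⁻¹ τ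
  rw [mul_inv_cancel] at h2
  have h3 : ((((1 : SL(2, ℤ)) 1 0 : ℤ) : ℂ) * τ + ((1 : SL(2, ℤ)) 1 1 : ℤ)) = 1 := by simp
  rw [h3] at h2
  have hc : c ≠ 0 := by
    rintro rfl
    rw [zero_mul, zero_mul] at h1
    exact phi_ne_zero p b τ h1
  rw [h1]
  have h4 : c⁻¹ * ((γ⁻¹ 1 0 : ℂ) * τ + γ⁻¹ 1 1) * (c * ((γ 1 0 : ℂ) * (γ⁻¹ • τ : ℍ) + γ 1 1) *
      phi p b (γ⁻¹ • τ)) = (c⁻¹ * c) * (((γ 1 0 : ℂ) * (γ⁻¹ • τ : ℍ) + γ 1 1) *
      ((γ⁻¹ 1 0 : ℂ) * τ + γ⁻¹ 1 1)) * phi p b (γ⁻¹ • τ) := by ring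
  rw [h4, ← h2, inv_mul_cancel₀ hc, one_mul, one_mul]

theorem TL.of_mul {γ δ : SL(2, ℤ)} {c d : ℂ} (h1 : TL p b (γ * δ) c) (h2 : TL p b δ d) :
    TL p b γ (c * d⁻¹) := by
  have := h1.mul h2.inv
  rwa [mul_inv_cancel_right] at this

variable (p b) in
theorem TL_T (k : ℤ) : TL p b (ModularGroup.T ^ k) 1 := by
  intro τ
  rw [phi_T, ModularGroup.coe_T_zpow]
  simp

theorem TL_U (hb : p * b = b + 2) : TL p b (Up p) (nu p) := by
  intro τ
  rw [phi_U hb]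
  simp [Up]

theorem TL_neg {γ : SL(2, ℤ)} {c : ℂ} (h : TL p b γ c) : TL p b (-γ) (-c) := by
  intro τ
  have h1 : (-γ) • τ = γ • τ := by
    rw [ModularGroup.SL_neg_smul]
  rw [h1, h]
  simp only [Matrix.SpecialLinearGroup.coe_neg, Matrix.neg_apply]
  push_cast
  ring

end Fermat.Agent.CB
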