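import Mathlib
import Fermat.Agent.CB.Phi

/-!
# The multiplier of the weight one eta quotient
-/

set_option autoImplicit false
set_option linter.unusedSectionVars false

noncomputable section

namespace Fermat.Agent.CB

open UpperHalfPlane hiding I J
open ModularForm
open scoped Manifold MatrixGroups ModularForm
open Fermat.Agent.Eis16 Fermat.Agent.ModFun Fermat.Agent.ESCore Fermat.Agent.LG
open CongruenceSubgroup (Gamma0 Gamma0_mem)
open Complex (I)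

section Entries

theorem mul_T_10 (γ : SL(2, ℤ)) (k : ℤ) : (γ * ModularGroup.T ^ k) 1 0 = γ 1 0 := by
  rw [Matrix.SpecialLinearGroup.coe_mul, ModularGroup.coe_T_zpow, Matrix.mul_apply,
    Fin.sum_univ_two]
  simp

theorem mul_T_11 (γ : SL(2, ℤ)) (k : ℤ) : (γ * ModularGroup.T ^ k) 1 1 = γ 1 1 + k * γ 1 0 := by
  rw [Matrix.SpecialLinearGroup.coe_mul, ModularGroup.coe_T_zpow, Matrix.mul_apply,
    Fin.sum_univ_two]
  simp
  ring

theorem mul_U_10 (γ : SL(2, ℤ)) (p : ℕ) : (γ * Up p) 1 0 = γ 1 0 + p * γ 1 1 := by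
  rw [Matrix.SpecialLinearGroup.coe_mul, Matrix.mul_apply, Fin.sum_univ_two]
  simp [Up]
  ring

theorem mul_U_11 (γ : SL(2, ℤ)) (p : ℕ) : (γ * Up p) 1 1 = γ 1 1 := by
  rw [Matrix.SpecialLinearGroup.coe_mul, Matrix.mul_apply, Fin.sum_univ_two]
  simp [Up]

theorem mul_Ui_10 (γ : SL(2, ℤ)) (p : ℕ) : (γ * (Up p)⁻¹) 1 0 = γ 1 0 - p * γ 1 1 := by
  rw [Matrix.SpecialLinearGroup.coe_mul, Matrix.mul_apply, Fin.sum_univ_two,
    Matrix.SpecialLinearGroup.coe_inv, Matrix.adjugate_fin_two]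
  simp [Up]
  ring

theorem dvd_of_mem {p : ℕ} {γ : SL(2, ℤ)} (h : γ ∈ Gamma0 p) : (p : ℤ) ∣ γ 1 0 := by
  rwa [Gamma0_mem, ZMod.intCast_zmod_eq_zero_iff_dvd] at h

theorem mem_of_dvd {p : ℕ} {γ : SL(2, ℤ)} (h : (p : ℤ) ∣ γ 1 0) : γ ∈ Gamma0 p := by
  rwa [Gamma0_mem, ZMod.intCast_zmod_eq_zero_iff_dvd]

theorem Up_mem (p : ℕ) : Up p ∈ Gamma0 p := mem_of_dvd (by simp [Up])

theorem T_mem (p : ℕ) (k : ℤ) : ModularGroup.T ^ k ∈ Gamma0 p := mem_of_dvd (by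
  rw [ModularGroup.coe_T_zpow]; simp)

/-- the determinant -/
theorem det_eq (γ : SL(2, ℤ)) : γ 0 0 * γ 1 1 - γ 0 1 * γ 1 0 = 1 := by
  have := γ.det_coe
  rwa [Matrix.det_fin_two] at this

theorem not_dvd_11 {p : ℕ} (hp : 1 < p) {γ : SL(2, ℤ)} (h : γ ∈ Gamma0 p) :
    ¬ (p : ℤ) ∣ γ 1 1 := by
  intro h1
  have h2 := det_eq γ
  have h3 : (p : ℤ) ∣ 1 := by
    rw [← h2]
    exact dvd_sub (h1.mul_left _) ((dvd_of_mem h).mul_left _)
  have := Int.le_of_dvd one_pos h3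
  omega

end Entries

section Descent

theorem exists_small (c d : ℤ) (hc : c ≠ 0) : ∃ k : ℤ, 2 * |d + k * c| ≤ |c| := by
  have h1 := Int.emod_nonneg d hc
  have h2 := Int.emod_lt_abs d hc
  have h3 := Int.emod_add_mul_ediv d c
  by_cases h : 2 * (d % c) ≤ |c|
  · refine ⟨-(d / c), ?_⟩
    have h4 : d + -(d / c) * c = d % c := by linarith
    rw [h4, abs_of_nonneg h1]
    exact h
  · push Not at h
    rcases lt_or_gt_of_ne hc with hneg | hpos
    · refine ⟨-(d / c) + 1, ?_⟩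
      have h4 : d + (-(d / c) + 1) * c = d % c - |c| := by
        rw [abs_of_neg hneg]
        linarith
      rw [h4, abs_of_nonpos (by linarith)]
      linarith
    · refine ⟨-(d / c) - 1, ?_⟩
      have h4 : d + (-(d / c) - 1) * c = d % c - |c| := by
        rw [abs_of_pos hpos]
        linarith
      rw [h4, abs_of_nonpos (by linarith)]
      linarith

theorem descent (p c d : ℤ) (hp : p = 2 ∨ p = 3) (hd : d ≠ 0) (h : 2 * |d| ≤ |c|) :
    |c + p * d| < |c| ∨ |c - p * d| < |c| := by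
  rcases hp with rfl | rfl
  · rcases abs_cases c with ⟨h1, h2⟩ | ⟨h1, h2⟩ <;> rcases abs_cases d with ⟨h3, h4⟩ | ⟨h3, h4⟩ <;>
    rcases abs_cases (c + 2 * d) with ⟨h5, h6⟩ | ⟨h5, h6⟩ <;>
    rcases abs_cases (c - 2 * d) with ⟨h7, h8⟩ | ⟨h7, h8⟩ <;> rw [h5, h7, h1] <;>
    rw [h1, h3] at h <;> omega
  · rcases abs_cases c with ⟨h1, h2⟩ | ⟨h1, h2⟩ <;> rcases abs_cases d with ⟨h3, h4⟩ | ⟨h3, h4⟩ <;>
    rcases abs_cases (c + 3 * d) with ⟨h5, h6⟩ | ⟨h5, h6⟩ <;>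
    rcases abs_cases (c - 3 * d) with ⟨h7, h8⟩ | ⟨h7, h8⟩ <;> rw [h5, h7, h1] <;>
    rw [h1, h3] at h <;> omega

end Descent

/-- A multiplier function. -/
structure MultFn (p : ℕ) (m : SL(2, ℤ) → ℂ) : Prop where
  one : m 1 = 1
  neg : ∀ γ ∈ Gamma0 p, m (-γ) = -m γ
  mulT : ∀ γ ∈ Gamma0 p, ∀ k : ℤ, m (γ * ModularGroup.T ^ k) = m γ
  mulU : ∀ γ ∈ Gamma0 p, m (γ * Up p) = m γ * nu p

theorem nu_ne_zero (p : ℕ) : nu p ≠ 0 := Complex.exp_ne_zero _

variable {p b : ℕ} [NeZero p]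

/-- The multiplier of `phi`. -/
theorem tl_of_mult (hb : p * b = b + 2) (hp : p = 2 ∨ p = 3) {m : SL(2, ℤ) → ℂ}
    (hm : MultFn p m) (γ : SL(2, ℤ)) (hγ : γ ∈ Gamma0 p) : TL p b γ (m γ) := by
  have hp1 : 1 < p := by rcases hp with h | h <;> omega
  have hpz : (p : ℤ) = 2 ∨ (p : ℤ) = 3 := by rcases hp with h | h <;> omega
  obtain ⟨n, hn⟩ : ∃ n : ℕ, (γ 1 0).natAbs = n := ⟨_, rfl⟩
  induction n using Nat.strong_induction_on generalizing γ with
  | _ n ih =>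
    by_cases hc : γ 1 0 = 0
    · have hdet := det_eq γ
      rw [hc, mul_zero, sub_zero] at hdet
      rcases Int.eq_one_or_neg_one_of_mul_eq_one' hdet with ⟨h1, h2⟩ | ⟨h1, h2⟩
      · have h3 : γ = ModularGroup.T ^ (γ 0 1) := by
          ext i j
          rw [ModularGroup.coe_T_zpow]
          fin_cases i <;> fin_cases j <;> simp [h1, h2, hc]
        have h4 := hm.mulT 1 (one_mem _) (γ 0 1)
        rw [one_mul, ← h3, hm.one] at h4
        rw [h4]
        have h5 := TL_T p b (γ 0 1)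
        rwa [← h3] at h5
      · have h3 : γ = -ModularGroup.T ^ (-γ 0 1) := by
          ext i j
          rw [Matrix.SpecialLinearGroup.coe_neg, ModularGroup.coe_T_zpow]
          fin_cases i <;> fin_cases j <;> simp [h1, h2, hc]
        have h4 := hm.mulT 1 (one_mem _) (-γ 0 1)
        rw [one_mul, hm.one] at h4
        have h6 := hm.neg _ (T_mem p (-γ 0 1))
        rw [h4, ← h3] at h6
        rw [h6]
        have h5 := TL_neg (TL_T p b (-γ 0 1))
        rwa [← h3] at h5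
    · obtain ⟨k, hk⟩ := exists_small (γ 1 0) (γ 1 1) hc
      set δ := γ * ModularGroup.T ^ k with hδ
      have hδmem : δ ∈ Gamma0 p := mul_mem hγ (T_mem p k)
      have e0 : δ 1 0 = γ 1 0 := mul_T_10 γ k
      have e1 : δ 1 1 = γ 1 1 + k * γ 1 0 := mul_T_11 γ k
      have hd0 : δ 1 1 ≠ 0 := by
        intro h0
        exact not_dvd_11 hp1 hδmem (by rw [h0]; exact dvd_zero _)
      rw [← e1, ← e0] at hk
      have key : TL p b δ (m δ) := by
        rcases descent p _ _ hpz hd0 hk with h | h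
        · rw [← mul_U_10] at h
          have h1 := ih _ (by
            rw [← hn, ← e0]
            rw [Int.abs_eq_natAbs, Int.abs_eq_natAbs] at h
            exact_mod_cast h) (δ * Up p) (mul_mem hδmem (Up_mem p)) rfl
          have h2 := h1.of_mul (TL_U hb)
          rwa [hm.mulU δ hδmem, mul_inv_cancel_right₀ (nu_ne_zero p)] at h2
        · rw [← mul_Ui_10] at h
          have hmem : δ * (Up p)⁻¹ ∈ Gamma0 p := mul_mem hδmem (inv_mem (Up_mem p))
          have h1 := ih _ (by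
            rw [← hn, ← e0]
            rw [Int.abs_eq_natAbs, Int.abs_eq_natAbs] at h
            exact_mod_cast h) (δ * (Up p)⁻¹) hmem rfl
          have h2 := h1.mul (TL_U hb)
          rw [inv_mul_cancel_right] at h2
          have h3 := hm.mulU _ hmem
          rw [inv_mul_cancel_right] at h3
          rwa [h3]
      have h4 := key.of_mul (TL_T p b k)
      rwa [inv_one, mul_one, hδ, hm.mulT γ hγ] at h4

/-! ### The two cases -/

theorem zpow_congr {x : ℂ} (hx0 : x ≠ 0) {n : ℤ} (hx : x ^ n = 1) {a c : ℤ} (h : n ∣ a - c) :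
    x ^ a = x ^ c := by
  obtain ⟨k, hk⟩ := h
  have h1 : a = c + n * k := by linarith
  rw [h1, zpow_add₀ hx0, zpow_mul, hx, one_zpow, mul_one]

theorem nu_two : nu 2 = I⁻¹ := by
  rw [nu]
  have h1 : (-(2 * (Real.pi : ℂ) * I * ((2 : ℕ) + 1) / 12)) = -(Real.pi / 2 * I) := by
    push_cast
    ring
  rw [h1, Complex.exp_neg, Complex.exp_pi_div_two_mul_I]

theorem nu_three_pow : nu 3 ^ 3 = 1 := by
  rw [nu, ← Complex.exp_nat_mul]
  have h1 : ((3 : ℕ) : ℂ) * (-(2 * (Real.pi : ℂ) * I * ((3 : ℕ) + 1) / 12)) =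
      ((-1 : ℤ) : ℂ) * (2 * Real.pi * I) := by
    push_cast
    ring
  rw [h1, Complex.exp_int_mul_two_pi_mul_I]

/-- the multiplier for `p = 2` in terms of the bottom row -/
def mult2 (c d : ℤ) : ℂ := I ^ ((d - 1) - (c / 2) * d)

/-- the quadratic character mod 3 -/
def chi3 (d : ℤ) : ℂ := if d % 3 = 1 then 1 else -1

/-- the multiplier for `p = 3` in terms of the bottom row -/
def mult3 (c d : ℤ) : ℂ := chi3 d * nu 3 ^ ((c / 3) * d)

theorem I_zpow_four : (I : ℂ) ^ (4 : ℤ) = 1 := by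
  have : (I : ℂ) ^ (4 : ℤ) = I ^ (4 : ℕ) := by norm_cast
  rw [this, Complex.I_pow_four]

theorem multFn_two : MultFn 2 (fun γ => mult2 (γ 1 0) (γ 1 1)) where
  one := by simp [mult2]
  neg γ hγ := by
    obtain ⟨c, hc⟩ := dvd_of_mem hγ
    have hd := not_dvd_11 one_lt_two hγ
    have h1 : (-γ) 1 0 = 2 * -c := by
      rw [Matrix.SpecialLinearGroup.coe_neg, Matrix.neg_apply, hc]; push_cast; ring
    have h2 : (-γ) 1 1 = -γ 1 1 := by
      rw [Matrix.SpecialLinearGroup.coe_neg, Matrix.neg_apply]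
    have h3 : (2 : ℤ) * -c / 2 = -c := Int.mul_ediv_cancel_left _ two_ne_zero
    have h4 : (((2 : ℕ) : ℤ) * c) / 2 = c := Int.mul_ediv_cancel_left _ two_ne_zero
    simp only [h1, h2, hc, mult2, h3, h4]
    have h5 : -(I ^ (γ 1 1 - 1 - c * γ 1 1)) = I ^ (γ 1 1 - 1 - c * γ 1 1 + 2) := by
      rw [zpow_add₀ Complex.I_ne_zero]
      have : (I : ℂ) ^ (2 : ℤ) = -1 := by
        have : (I : ℂ) ^ (2 : ℤ) = I ^ (2 : ℕ) := by norm_cast
        rw [this, Complex.I_sq]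
      rw [this, mul_neg_one]
    rw [h5]
    refine zpow_congr Complex.I_ne_zero I_zpow_four ?_
    obtain ⟨k, hk⟩ : ∃ k, γ 1 1 = 2 * k + 1 := ⟨γ 1 1 / 2, by omega⟩
    refine ⟨-k - 1, ?_⟩
    rw [hk]
    ring
  mulT γ hγ k := by
    obtain ⟨c, hc⟩ := dvd_of_mem hγ
    have h4 : (((2 : ℕ) : ℤ) * c) / 2 = c := Int.mul_ediv_cancel_left _ two_ne_zero
    simp only [mul_T_10, mul_T_11, hc, mult2, h4]
    refine zpow_congr Complex.I_ne_zero I_zpow_four ?_
    have h6 : Even (c * (1 - c)) := by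
      rcases Int.even_or_odd c with h | h
      · exact h.mul_right _
      · exact (Odd.sub_odd odd_one h).mul_left _
    obtain ⟨n, hn⟩ := h6
    refine ⟨k * n, ?_⟩
    push_cast
    linear_combination 2 * k * hn
  mulU γ hγ := by
    obtain ⟨c, hc⟩ := dvd_of_mem hγ
    have hd := not_dvd_11 one_lt_two hγ
    have h3 : (((2 : ℕ) : ℤ) * c + ((2 : ℕ) : ℤ) * γ 1 1) / 2 = c + γ 1 1 := by
      push_cast
      omega
    have h4 : (((2 : ℕ) : ℤ) * c) / 2 = c := Int.mul_ediv_cancel_left _ two_ne_zero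
    simp only [mul_U_10, mul_U_11, hc, mult2, h3, h4, nu_two]
    rw [← zpow_neg_one, ← zpow_add₀ Complex.I_ne_zero]
    refine zpow_congr Complex.I_ne_zero I_zpow_four ?_
    obtain ⟨k, hk⟩ : ∃ k, γ 1 1 = 2 * k + 1 := ⟨γ 1 1 / 2, by omega⟩
    refine ⟨-(k ^ 2 + k), ?_⟩
    rw [hk]
    ring

theorem chi3_neg {d : ℤ} (hd : ¬ (3 : ℤ) ∣ d) : chi3 (-d) = -chi3 d := by
  rw [chi3, chi3]
  by_cases h : d % 3 = 1
  · rw [if_pos h, if_neg (by omega)]
  · rw [if_neg h, if_pos (by omega), neg_neg]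

theorem chi3_congr {d e : ℤ} (h : (3 : ℤ) ∣ d - e) : chi3 d = chi3 e := by
  rw [chi3, chi3]
  have : d % 3 = e % 3 := by omega
  rw [this]

theorem nu3_zpow : nu 3 ^ (3 : ℤ) = 1 := by
  have : nu 3 ^ (3 : ℤ) = nu 3 ^ (3 : ℕ) := by norm_cast
  rw [this, nu_three_pow]

theorem multFn_three : MultFn 3 (fun γ => mult3 (γ 1 0) (γ 1 1)) where
  one := by simp [mult3, chi3]
  neg γ hγ := by
    obtain ⟨c, hc⟩ := dvd_of_mem hγ
    have hd := not_dvd_11 (by norm_num : 1 < 3) hγ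
    have h1 : (-γ) 1 0 = 3 * -c := by
      rw [Matrix.SpecialLinearGroup.coe_neg, Matrix.neg_apply, hc]; push_cast; ring
    have h2 : (-γ) 1 1 = -γ 1 1 := by
      rw [Matrix.SpecialLinearGroup.coe_neg, Matrix.neg_apply]
    have h3 : (3 : ℤ) * -c / 3 = -c := Int.mul_ediv_cancel_left _ three_ne_zero
    have h4 : (((3 : ℕ) : ℤ) * c) / 3 = c := Int.mul_ediv_cancel_left _ three_ne_zero
    simp only [h1, h2, hc, mult3, h3, h4]
    rw [chi3_neg hd, neg_mul_neg, neg_mul]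
  mulT γ hγ k := by
    obtain ⟨c, hc⟩ := dvd_of_mem hγ
    have h4 : (((3 : ℕ) : ℤ) * c) / 3 = c := Int.mul_ediv_cancel_left _ three_ne_zero
    simp only [mul_T_10, mul_T_11, hc, mult3, h4]
    rw [chi3_congr (d := γ 1 1 + k * (((3 : ℕ) : ℤ) * c)) (e := γ 1 1) ⟨k * c, by push_cast; ring⟩]
    congr 1
    refine zpow_congr (nu_ne_zero 3) nu3_zpow ⟨k * c ^ 2, ?_⟩
    push_cast
    ring
  mulU γ hγ := by
    obtain ⟨c, hc⟩ := dvd_of_mem hγ
    have hd := not_dvd_11 (by norm_num : 1 < 3) hγ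
    have h3 : (((3 : ℕ) : ℤ) * c + ((3 : ℕ) : ℤ) * γ 1 1) / 3 = c + γ 1 1 := by
      push_cast
      omega
    have h4 : (((3 : ℕ) : ℤ) * c) / 3 = c := Int.mul_ediv_cancel_left _ three_ne_zero
    simp only [mul_U_10, mul_U_11, hc, mult3, h3, h4]
    rw [mul_assoc]
    congr 1
    conv_rhs => rw [← zpow_one (nu 3), ← zpow_mul, ← zpow_add₀ (nu_ne_zero 3)]
    refine zpow_congr (nu_ne_zero 3) nu3_zpow ?_
    have hcase : γ 1 1 % 3 = 1 ∨ γ 1 1 % 3 = 2 := by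
      push_cast at hd
      omega
    rcases hcase with h | h
    · obtain ⟨k, hk⟩ : ∃ k, γ 1 1 = 3 * k + 1 := ⟨γ 1 1 / 3, by omega⟩
      exact ⟨3 * k ^ 2 + 2 * k, by rw [hk]; ring⟩
    · obtain ⟨k, hk⟩ : ∃ k, γ 1 1 = 3 * k + 2 := ⟨γ 1 1 / 3, by omega⟩
      exact ⟨3 * k ^ 2 + 4 * k + 1, by rw [hk]; ring⟩

theorem phi_smul_two {γ : SL(2, ℤ)} (hγ : γ ∈ Gamma0 2) : TL 2 2 γ (mult2 (γ 1 0) (γ 1 1)) :=
  tl_of_mult rfl (Or.inl rfl) multFn_two γ hγ

theorem phi_smul_three {γ : SL(2, ℤ)} (hγ : γ ∈ Gamma0 3) : TL 3 1 γ (mult3 (γ 1 0) (γ 1 1)) :=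
  tl_of_mult rfl (Or.inr rfl) multFn_three γ hγ

end Fermat.Agent.CB
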