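import Mathlib
import Fermat.Agent.CB.Mult
import Fermat.Agent.LG.WSer

/-!
# The modular unit `phi(τ) / phi(qτ)`
-/

set_option autoImplicit false
set_option linter.unusedSectionVars false
set_option linter.style.haveILetI false

noncomputable section

namespace Fermat.Agent.CB

open UpperHalfPlane hiding I J
open ModularForm
open scoped Manifold MatrixGroups ModularForm
open Fermat.Agent.Eis16 Fermat.Agent.ModFun Fermat.Agent.ESCore Fermat.Agent.LG
open Fermat.Agent.ESCore.Gal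
open CongruenceSubgroup (Gamma0 Gamma0_mem)
open Complex (I)

local notation "𝕢" => Function.Periodic.qParam
local notation "Δ" => ModularForm.discriminant

section Series

variable (p b : ℕ) [NeZero p]

/-- The expansion of `phi`. -/
def PhiZ : PowerSeries ℤ :=
  ModularCurve.etaProd ^ (p * b) *
    (PowerSeries.invOfUnit (PowerSeries.expand p (NeZero.ne p) ModularCurve.etaProd) 1) ^ b

theorem constantCoeff_PhiZ : PowerSeries.constantCoeff (PhiZ p b) = 1 := by
  rw [PhiZ, map_mul, map_pow, map_pow, ModularCurve.constantCoeff_etaProd,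
    PowerSeries.constantCoeff_invOfUnit]
  simp

theorem tri_eq_up (τ : ℍ) : tri p 0 1 τ = up p τ := by
  apply UpperHalfPlane.ext
  rw [coe_tri, coe_up]
  push_cast
  ring

theorem hasQ_phi : HasQ 1 (phi p b) (toC (PhiZ p b)) := by
  have h1 : HasQ 1 (fun τ => EP (up p τ))
      (toC (PowerSeries.expand p (NeZero.ne p) ModularCurve.etaProd)) := by
    have h := HasQ.up p hasQ_EP
    have h1 : PowerSeries.expand p (NeZero.ne p) (toC ModularCurve.etaProd) =
        toC (PowerSeries.expand p (NeZero.ne p) ModularCurve.etaProd) := by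
      rw [PowerSeries.map_expand]
    rw [h1] at h
    exact h
  have h2 := hasExp_inv_of h1 (fun τ => by
    rw [← tri_eq_up, ← tri_eq_up]
    refine EP_T (p : ℤ) _ _ ?_
    rw [coe_tri, coe_tri]
    change ((p : ℂ) * ((1 : ℝ) + (τ : ℂ)) + _) / _ = _
    push_cast
    ring) (by
    rw [PowerSeries.constantCoeff_expand]
    exact ModularCurve.constantCoeff_etaProd) (fun τ => EP_ne_zero _)
  have h3 := (hasQ_EP.pow (p * b)).mul (h2.pow b)
  have h4 : toC (PhiZ p b) = toC ModularCurve.etaProd ^ (p * b) *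
      toC (PowerSeries.invOfUnit
        (PowerSeries.expand p (NeZero.ne p) ModularCurve.etaProd) 1) ^ b := by
    rw [PhiZ, map_mul, map_pow, map_pow]
  rw [h4]
  refine h3.congr fun τ => ?_
  rw [phi, tri_eq_up]
  rfl

theorem hasExp_of_hasQ {f : ℍ → ℂ} {P : PowerSeries ℤ} (h : HasQ 1 f (toC P)) :
    HasExp (Int.castRingHom ℂ) (qN 1) f (HahnSeries.ofPowerSeries ℤ ℤ P) := by
  refine hasExp_ofPowerSeries fun τ _ => ?_
  have := h τ
  simp only [coeff_toC] at this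
  rw [qN_apply, Nat.cast_one]
  exact this

theorem phi_vadd (τ : ℍ) : phi p b ((1 : ℝ) +ᵥ τ) = phi p b τ := by
  have h := phi_T p b 1 τ
  rw [zpow_one, modular_T_smul] at h
  exact h

/-- the inverse series -/
def PhiZi : PowerSeries ℤ := PowerSeries.invOfUnit (PhiZ p b) 1

theorem PhiZ_mul_PhiZi : PhiZ p b * PhiZi p b = 1 :=
  PowerSeries.mul_invOfUnit _ _ (by rw [constantCoeff_PhiZ]; rfl)

theorem hasQ_phi_inv : HasQ 1 (fun τ => (phi p b τ)⁻¹) (toC (PhiZi p b)) :=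
  hasExp_inv_of (hasQ_phi p b) (phi_vadd p b) (constantCoeff_PhiZ p b) (phi_ne_zero p b)

variable (R : Type*) [CommRing R]

/-- The expansion of `phi` over `R`. -/
def PhiS : LaurentSeries R :=
  ModularCurve.coeffMap (Int.castRingHom R) (HahnSeries.ofPowerSeries ℤ ℤ (PhiZ p b))

/-- The expansion of `phi⁻¹` over `R`. -/
def PhiSi : LaurentSeries R :=
  ModularCurve.coeffMap (Int.castRingHom R) (HahnSeries.ofPowerSeries ℤ ℤ (PhiZi p b))

theorem PhiS_mul_PhiSi : PhiS p b R * PhiSi p b R = 1 := by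
  rw [PhiS, PhiSi, ← map_mul, ← map_mul, PhiZ_mul_PhiZi, map_one, map_one]

variable {R}

theorem hasExp_phi (ι : R →+* ℂ) : HasExp ι (qN 1) (phi p b) (PhiS p b R) :=
  (hasExp_of_hasQ (hasQ_phi p b)).coeffMap _ (RingHom.ext_int _ _)

theorem hasExp_phi_inv (ι : R →+* ℂ) : HasExp ι (qN 1) (fun τ => (phi p b τ)⁻¹) (PhiSi p b R) :=
  (hasExp_of_hasQ (hasQ_phi_inv p b)).coeffMap _ (RingHom.ext_int _ _)

end Series

/-! ### Moderate growth -/

section Growth

theorem disc_bounded : IsBoundedAtImInfty (Δ : ℍ → ℂ) := by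
  have h := hasQ_Delta.isBounded one_pos
  exact h

theorem MB_of_pow {f : ℍ → ℂ} (hf : MDiff f) {n : ℕ} (hn : 0 < n) (h : f ^ n ∈ MB) : f ∈ MB := by
  obtain ⟨-, k, hk⟩ := h
  refine ⟨hf, k, fun γ => ?_⟩
  have h1 := hk γ
  have h2 : IsBoundedAtImInfty ((Δ ^ k * fun τ : ℍ => f (γ • τ)) ^ n) := by
    have h3 : ((Δ ^ k * fun τ : ℍ => f (γ • τ)) ^ n : ℍ → ℂ) =
        (Δ : ℍ → ℂ) ^ ((n - 1) * k) * (Δ ^ k * fun τ : ℍ => (f ^ n) (γ • τ)) := by
      funext τ
      simp only [Pi.mul_apply, Pi.pow_apply, mul_pow]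
      rw [← mul_assoc, ← pow_add, ← pow_mul]
      congr 2
      obtain ⟨m, rfl⟩ : ∃ m, n = m + 1 := ⟨n - 1, by omega⟩
      rw [Nat.add_sub_cancel]
      ring
    rw [h3]
    refine Filter.BoundedAtFilter.mul ?_ h1
    have : ∀ m : ℕ, IsBoundedAtImInfty ((Δ : ℍ → ℂ) ^ m) := by
      intro m
      induction m with
      | zero => rw [pow_zero]; exact Filter.const_boundedAtFilter atImInfty (1 : ℂ)
      | succ m ih => rw [pow_succ]; exact ih.mul disc_bounded
    exact this _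
  refine Asymptotics.IsBigO.of_pow hn.ne' ?_
  refine h2.congr_right fun τ => ?_
  simp

theorem ud_mem_MB (d : ℕ) [NeZero d] : ud d ∈ MB ∧ (ud d)⁻¹ ∈ MB := by
  have hd : (d : ℂ) ≠ 0 := by exact_mod_cast NeZero.ne d
  have hinv : IsInv d (ud d) := fun γ hγ τ => ud_invariant dvd_rfl hγ τ
  constructor
  · refine mem_MB_of_modFun (N := d) ⟨mdiff_ud d, fun γ => ?_⟩ hinv
    obtain ⟨F, G, h1, -, -, -⟩ := uexp_ud_smul (R := ℂ) (φ := RingHom.id ℂ) (N := d)
      (ζ := zetaC d) (isUnit_iff_ne_zero.mpr hd) rfl (d := d) (e := 1) (mul_one d) γ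
    exact ⟨F, h1⟩
  · refine mem_MB_of_modFun (N := d) ⟨mdiff_inv (mdiff_ud d) (ud_ne_zero d), fun γ => ?_⟩
      fun γ hγ τ => by rw [Pi.inv_apply, Pi.inv_apply, hinv γ hγ]
    obtain ⟨F, G, -, h1, -, -⟩ := uexp_ud_smul (R := ℂ) (φ := RingHom.id ℂ) (N := d)
      (ζ := zetaC d) (isUnit_iff_ne_zero.mpr hd) rfl (d := d) (e := 1) (mul_one d) γ
    exact ⟨G, h1⟩

end Growth

/-! ### The unit -/

section Psi

variable (p b : ℕ) [NeZero p] (q : ℕ) [NeZero q]

/-- `phi(τ) / phi(qτ)` -/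
def psi (τ : ℍ) : ℂ := phi p b τ * (phi p b (tri q 0 1 τ))⁻¹

theorem psi_ne_zero (τ : ℍ) : psi p b q τ ≠ 0 :=
  mul_ne_zero (phi_ne_zero _ _ _) (inv_ne_zero (phi_ne_zero _ _ _))

theorem mdiff_psi : MDiff (psi p b q) :=
  (mdiff_phi p b).mul (MDifferentiable.inv (mdiff_tri q 0 1 (mdiff_phi p b))
    fun τ => phi_ne_zero _ _ _)

theorem phi_pow (τ : ℍ) : phi p b τ ^ 24 * Δ (tri p 0 1 τ) ^ b = Δ τ ^ (p * b) := by
  have h := congrArg (fun z => z ^ 24) (phi_mul_eta p b τ)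
  simp only [mul_pow] at h
  rw [ModularForm.discriminant, ModularForm.discriminant, ← pow_mul, ← pow_mul, mul_comm 24 b,
    mul_comm 24 (p * b), pow_mul, pow_mul _ (p * b)]
  exact h

theorem tri_tri' (τ : ℍ) : haveI : NeZero (p * q) := ⟨mul_ne_zero (NeZero.ne p) (NeZero.ne q)⟩
    tri p 0 1 (tri q 0 1 τ) = tri (p * q) 0 1 τ := by
  apply UpperHalfPlane.ext
  rw [coe_tri, coe_tri, coe_tri]
  push_cast
  ring

theorem psi_mem_MB : psi p b q ∈ MB ∧ (psi p b q)⁻¹ ∈ MB := by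
  haveI : NeZero (p * q) := ⟨mul_ne_zero (NeZero.ne p) (NeZero.ne q)⟩
  have key : psi p b q ^ 24 = ud (p * q) ^ b * (ud p)⁻¹ ^ b * (ud q)⁻¹ ^ (p * b) := by
    funext τ
    have h1 := phi_pow p b τ
    have h2 := phi_pow p b (tri q 0 1 τ)
    rw [tri_tri'] at h2
    simp only [Pi.pow_apply, Pi.mul_apply, Pi.inv_apply, psi, ud]
    have d0 := discriminant_ne_zero τ
    have d1 := discriminant_ne_zero (tri p 0 1 τ)
    have d2 := discriminant_ne_zero (tri q 0 1 τ)
    have d3 := discriminant_ne_zero (tri (p * q) 0 1 τ)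
    have f1 := phi_ne_zero p b (tri q 0 1 τ)
    have e1 : phi p b τ ^ 24 = Δ τ ^ (p * b) / Δ (tri p 0 1 τ) ^ b := by
      rw [eq_div_iff (pow_ne_zero _ d1)]; exact h1
    have e2 : phi p b (tri q 0 1 τ) ^ 24 = Δ (tri q 0 1 τ) ^ (p * b) /
        Δ (tri (p * q) 0 1 τ) ^ b := by
      rw [eq_div_iff (pow_ne_zero _ d3)]; exact h2
    rw [mul_pow, inv_pow, e1, e2]
    simp only [div_pow, inv_pow, inv_div]
    have d0' := pow_ne_zero b d0
    have d0'' := pow_ne_zero (p * b) d0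
    have d1' := pow_ne_zero b d1
    have d2' := pow_ne_zero (p * b) d2
    have d3' := pow_ne_zero b d3
    field_simp
  have hne : ∀ τ, psi p b q τ ≠ 0 := psi_ne_zero p b q
  obtain ⟨u1, u1'⟩ := ud_mem_MB p
  obtain ⟨u2, u2'⟩ := ud_mem_MB q
  obtain ⟨u3, u3'⟩ := ud_mem_MB (p * q)
  constructor
  · refine MB_of_pow (mdiff_psi p b q) (n := 24) (by norm_num) ?_
    rw [key]
    exact mul_mem (mul_mem (pow_mem u3 _) (pow_mem u1' _)) (pow_mem u2' _)
  · refine MB_of_pow (mdiff_inv (mdiff_psi p b q) hne) (n := 24) (by norm_num) ?_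
    have h1 : ((psi p b q)⁻¹ : ℍ → ℂ) ^ 24 = (ud (p * q))⁻¹ ^ b * ud p ^ b * ud q ^ (p * b) := by
      rw [inv_pow, key]
      funext τ
      simp only [Pi.inv_apply, Pi.mul_apply, Pi.pow_apply, mul_inv, inv_pow, inv_inv]
    rw [h1]
    exact mul_mem (mul_mem (pow_mem u3' _) (pow_mem u1 _)) (pow_mem u2 _)

end Psi

end Fermat.Agent.CB
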