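import Mathlib
import Fermat.Agent.CB.Psi
import Fermat.Agent.ModFun.JDeriv
import Fermat.Agent.Eis16.EisTwo
import Fermat.Agent.ESCore.HauptMain

/-!
# The derivative of the Hauptmodul of level two
-/

set_option autoImplicit false
set_option linter.unusedSectionVars false

noncomputable section

namespace Fermat.Agent.CB

open UpperHalfPlane hiding I J
open ModularForm
open scoped Manifold MatrixGroups ModularForm Derivative Topology
open Fermat.Agent.Eis16 Fermat.Agent.ModFun Fermat.Agent.ESCore Fermat.Agent.LG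
open CongruenceSubgroup (Gamma0 Gamma0_mem)
open ModularGroup (S)
open Complex (I)
open Function Filter Derivative

local notation "𝕢" => Function.Periodic.qParam
local notation "Δ" => ModularForm.discriminant

/-- The operator `x d/dx`. -/
def thP {R : Type*} [CommRing R] (A : PowerSeries R) : PowerSeries R :=
  PowerSeries.mk fun n => (n : R) * A.coeff n

theorem coeff_thP {R : Type*} [CommRing R] (A : PowerSeries R) (n : ℕ) :
    (thP A).coeff n = n * A.coeff n := PowerSeries.coeff_mk _ _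

theorem thP_mul {R : Type*} [CommRing R] (A B : PowerSeries R) :
    thP (A * B) = thP A * B + A * thP B := by
  ext n
  rw [coeff_thP, map_add, PowerSeries.coeff_mul, PowerSeries.coeff_mul, PowerSeries.coeff_mul,
    Finset.mul_sum, ← Finset.sum_add_distrib]
  refine Finset.sum_congr rfl fun ij hij => ?_
  rw [← Finset.HasAntidiagonal.mem_antidiagonal.mp hij, coeff_thP, coeff_thP]
  push_cast
  ring

theorem thP_add {R : Type*} [CommRing R] (A B : PowerSeries R) :
    thP (A + B) = thP A + thP B := by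
  ext n
  rw [coeff_thP, map_add, map_add, coeff_thP, coeff_thP]
  ring

theorem thP_one {R : Type*} [CommRing R] : thP (1 : PowerSeries R) = 0 := by
  ext n
  rw [coeff_thP, PowerSeries.coeff_one, map_zero]
  split_ifs with h
  · rw [h]; simp
  · simp

theorem thP_C_mul {R : Type*} [CommRing R] (c : R) (A : PowerSeries R) :
    thP (PowerSeries.C c * A) = PowerSeries.C c * thP A := by
  ext n
  rw [coeff_thP, PowerSeries.coeff_C_mul, PowerSeries.coeff_C_mul, coeff_thP]
  ring

theorem thP_expand {R : Type*} [CommRing R] (p : ℕ) (hp : p ≠ 0) (A : PowerSeries R) :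
    thP (PowerSeries.expand p hp A) = PowerSeries.C (p : R) * PowerSeries.expand p hp (thP A) := by
  ext n
  rw [coeff_thP, PowerSeries.coeff_C_mul, PowerSeries.coeff_expand, PowerSeries.coeff_expand]
  split_ifs with h
  · obtain ⟨m, rfl⟩ := h
    rw [Nat.mul_div_cancel_left m (Nat.pos_of_ne_zero hp), coeff_thP]
    push_cast
    ring
  · simp

theorem toC_thP (A : PowerSeries ℤ) : toC (thP A) = thP (toC A) := by
  ext n
  rw [coeff_toC, coeff_thP, coeff_thP, coeff_toC]
  push_cast
  rfl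

theorem hasQ_D {f : ℍ → ℂ} {A : PowerSeries ℂ} (hf : HasQ 1 f A) : HasQ 1 (D f) (thP A) := by
  intro τ
  set q : ℂ := 𝕢 (1 : ℝ) τ with hq
  have hq1 : ‖q‖ < 1 := Periodic.norm_qParam_lt_one one_pos τ.im_pos
  obtain ⟨r, hr1, hr2⟩ := exists_between hq1
  have hr0 : 0 ≤ r := (norm_nonneg _).trans hr1.le
  have hsum : Summable fun n : ℕ => ‖A.coeff n‖ * r ^ n := by
    have h1 : ‖((r : ℝ) : ℂ)‖ < 1 := by
      rw [Complex.norm_real, Real.norm_of_nonneg hr0]
      exact hr2
    have h2 := (HasQ.summable one_pos hf h1).norm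
    refine h2.congr fun n => ?_
    rw [norm_mul, norm_pow, Complex.norm_real, Real.norm_of_nonneg hr0]
  have hder := Complex.hasSum_deriv_of_summable_norm (U := Metric.ball (0 : ℂ) r)
    (F := fun n w => A.coeff n * w ^ n) (z := q) hsum
    (fun n => ((differentiable_id.pow n).const_mul _).differentiableOn) Metric.isOpen_ball
    (fun n w hw => by
      rw [mem_ball_zero_iff] at hw
      rw [norm_mul, norm_pow]
      exact mul_le_mul_of_nonneg_left (pow_le_pow_left₀ (norm_nonneg _) hw.le n) (norm_nonneg _))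
    (by rw [mem_ball_zero_iff]; exact hr1)
  have hfn : (fun w : ℂ => ∑' n : ℕ, A.coeff n * w ^ n) = HasQ.fn A := rfl
  rw [hfn] at hder
  have hDf : D f τ = q * deriv (HasQ.fn A) q := by
    have hd : DifferentiableAt ℂ (HasQ.fn A) q :=
      (HasQ.differentiableOn one_pos hf).differentiableAt
        (Metric.isOpen_ball.mem_nhds (by rw [mem_ball_zero_iff]; exact hq1))
    have h1 : HasDerivAt (HasQ.fn A ∘ 𝕢 (1 : ℝ))
        (deriv (HasQ.fn A) q * (2 * Real.pi * Complex.I * 𝕢 (1 : ℝ) τ)) (τ : ℂ) :=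
      HasDerivAt.comp (τ : ℂ) (h₂ := HasQ.fn A) (h := 𝕢 (1 : ℝ)) hd.hasDerivAt
        (hasDerivAt_qParam_one _)
    have h2 : (f ∘ ofComplex) =ᶠ[𝓝 (τ : ℂ)] (HasQ.fn A ∘ 𝕢 (1 : ℝ)) := by
      refine comp_ofComplex_eventually (fun z hz => ?_) τ
      simp only [Function.comp_apply, ofComplex_apply_of_im_pos hz]
      exact HasQ.eq_fn hf _
    rw [normalizedDerivOfComplex, h2.deriv_eq, h1.deriv, ← hq]
    have := Complex.two_pi_I_ne_zero
    field_simp
  rw [hDf]
  refine hasSum_congr' (fun n => ?_) (hder.mul_left q)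
  have h3 : deriv (fun w : ℂ => A.coeff n * w ^ n) q = A.coeff n * (n * q ^ (n - 1)) := by
    rw [deriv_const_mul_field, deriv_pow_field]
  rw [h3, coeff_thP]
  rcases Nat.eq_zero_or_pos n with rfl | hn
  · simp
  · obtain ⟨m, rfl⟩ : ∃ m, n = m + 1 := ⟨n - 1, by omega⟩
    rw [Nat.add_sub_cancel]
    ring

theorem D_disc (τ : ℍ) : D (Δ : ℍ → ℂ) τ = EisensteinSeries.E2 τ * Δ τ := by
  have h1 := ModularForm.logDeriv_eta_eq_E2 τ
  have h2 : DifferentiableAt ℂ ModularForm.eta (τ : ℂ) :=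
    ModularForm.differentiableAt_eta_of_mem_upperHalfPlaneSet τ.2
  have h3 : ((Δ : ℍ → ℂ) ∘ ofComplex) =ᶠ[𝓝 (τ : ℂ)] (fun z => ModularForm.eta z ^ 24) := by
    refine comp_ofComplex_eventually (fun z hz => ?_) τ
    rw [Function.comp_apply, ofComplex_apply_of_im_pos hz]
    rfl
  have h4 : ModularForm.eta (τ : ℂ) ≠ 0 := ModularForm.eta_ne_zero τ.2
  rw [logDeriv_apply, div_eq_iff h4] at h1
  have h8 : deriv (fun z => ModularForm.eta z ^ 24) (τ : ℂ) =
      24 * ModularForm.eta (τ : ℂ) ^ 23 * deriv ModularForm.eta (τ : ℂ) := by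
    have := (h2.hasDerivAt.pow 24).deriv
    push_cast at this
    exact this
  rw [normalizedDerivOfComplex, h3.deriv_eq, h8, h1]
  have h5 : Δ τ = ModularForm.eta (τ : ℂ) ^ 24 := rfl
  rw [h5]
  have := Real.pi_ne_zero
  have h6 : (Real.pi : ℂ) ≠ 0 := by exact_mod_cast this
  have h7 := Complex.I_ne_zero
  push_cast
  field_simp
  ring

/-- The series of `E₂`. -/
def E2S : PowerSeries ℤ := PowerSeries.mk fun m =>
  if m = 0 then 1 else -24 * (ArithmeticFunction.sigma 1 m : ℤ)

theorem hasQ_E2S : HasQ 1 EisensteinSeries.E2 (toC E2S) := by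
  have h := hasQ_E2
  have h1 : (PowerSeries.mk fun m => if m = 0 then 1 else
      -24 * (ArithmeticFunction.sigma 1 m : ℂ)) = toC E2S := by
    ext n
    rw [coeff_toC, E2S, PowerSeries.coeff_mk, PowerSeries.coeff_mk]
    split_ifs <;> push_cast <;> rfl
  rwa [h1] at h

theorem toC_injective : Function.Injective (toC : PowerSeries ℤ → PowerSeries ℂ) := by
  intro a b h
  ext n
  have := congrArg (PowerSeries.coeff n) h
  rw [coeff_toC, coeff_toC] at this
  exact_mod_cast this

theorem thP_DZ : thP DZ = E2S * DZ := by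
  apply toC_injective
  rw [toC_thP, map_mul]
  refine HasQ.unique one_pos (hasQ_D hasQ_Delta) ((hasQ_E2S.mul hasQ_Delta).congr fun τ => ?_)
  rw [D_disc]
  rfl

theorem DZ_ne_zero : DZ ≠ 0 := by
  intro h
  have h1 := hasQ_Delta
  rw [h, map_zero] at h1
  have h2 := HasQ.ext h1 (HasQ.zero 1)
  exact discriminant_ne_zero UpperHalfPlane.I (congrFun h2 _)

/-- The series of `2 E₂(2τ) - E₂(τ)`. -/
def E2T : PowerSeries ℤ := PowerSeries.C 2 * PowerSeries.expand 2 two_ne_zero E2S - E2S

theorem TS_mul_DZ : TS 2 16 * DZ = PowerSeries.expand 2 two_ne_zero DZ := by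
  apply toC_injective
  rw [map_mul]
  have h1 : HasQ 1 t2 (toC (TS 2 16)) := haupt2.hasQ
  have h2 := hasQ_Dp 2
  refine HasQ.unique one_pos (h1.mul hasQ_Delta) (h2.congr fun τ => ?_)
  rw [Pi.mul_apply, t2_eq_div, div_mul_cancel₀ _ (discriminant_ne_zero τ)]
  rfl

theorem thP_TS : thP (TS 2 16) = E2T * TS 2 16 := by
  have h1 := congrArg thP TS_mul_DZ
  have h2 := TS_mul_DZ
  rw [thP_mul, thP_expand, thP_DZ, map_mul, ← TS_mul_DZ] at h1
  apply mul_right_cancel₀ DZ_ne_zero
  rw [E2T]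
  push_cast at h1
  linear_combination h1

/-- `2 E₂(2τ) - E₂(τ)` -/
def e2 (τ : ℍ) : ℂ := 24 * eisTwo 2 τ

theorem hasQ_e2 : HasQ 1 e2 (toC E2T) := by
  have h1 := ((HasQ.up 2 hasQ_E2S).smul 2).sub hasQ_E2S
  have h2 : (2 : ℂ) • PowerSeries.expand 2 (NeZero.ne 2) (toC E2S) - toC E2S = toC E2T := by
    rw [E2T, map_sub, map_mul]
    have : toC (PowerSeries.expand 2 two_ne_zero E2S) =
        PowerSeries.expand 2 (NeZero.ne 2) (toC E2S) := by
      rw [PowerSeries.map_expand]
    rw [this, toC_C, PowerSeries.smul_eq_C_mul]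
    push_cast
    rfl
  rw [h2] at h1
  refine h1.congr fun τ => ?_
  rw [e2, eisTwo]
  simp only [Pi.sub_apply, Pi.smul_apply, smul_eq_mul]
  push_cast
  ring

theorem e2_smul {g : SL(2, ℤ)} (hg : g ∈ Gamma0 2) (τ : ℍ) :
    e2 (g • τ) = denom g τ ^ 2 * e2 τ := by
  have h := congrFun (eisTwo_slash (p := 2) g hg) τ
  rw [ModularForm.SL_slash_apply] at h
  have h1 : denom g τ ≠ 0 := denom_ne_zero _ _
  rw [e2, e2, ← h, zpow_neg, show (2 : ℤ) = ((2 : ℕ) : ℤ) from rfl, zpow_natCast]
  field_simp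

theorem e2_S (τ : ℍ) : e2 (S • τ) = (τ : ℂ) ^ 2 * (-(1 / 2) * e2 (dn 2 τ)) := by
  have h := congrFun (eisTwo_slash_S (p := 2)) τ
  rw [slash_S_apply, zpow_neg, show (2 : ℤ) = ((2 : ℕ) : ℤ) from rfl, zpow_natCast] at h
  have h1 : (τ : ℂ) ≠ 0 := τ.ne_zero
  have h2 : eisTwo 2 (S • τ) = (τ : ℂ) ^ 2 * (-((2 : ℕ) : ℂ)⁻¹ * eisTwo 2 (dn 2 τ)) := by
    rw [← h]
    field_simp
  rw [e2, h2, e2]
  push_cast
  ring

theorem E2T_coeff : PowerSeries.coeff 0 E2T = 1 ∧ PowerSeries.coeff 1 E2T = 24 := by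
  constructor
  · rw [E2T, map_sub, PowerSeries.coeff_C_mul, PowerSeries.coeff_expand]
    simp [E2S]
  · rw [E2T, map_sub, PowerSeries.coeff_C_mul, PowerSeries.coeff_expand]
    simp [E2S]

theorem e2_sq (τ : ℍ) : e2 τ ^ 2 = vF 2 τ + 64 * uF 2 τ := by
  have key := eq_zero_of_sturm 2 4 (e2 ^ 2 - (vF 2 + (64 : ℂ) • uF 2)) (by
      intro g hg τ
      simp only [Pi.sub_apply, Pi.add_apply, Pi.smul_apply, Pi.pow_apply, smul_eq_mul]
      rw [vF_smul 2 g hg, uF_smul 2 g hg, e2_smul hg]; ring)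
    (E2T ^ 2 - (VS 2 16 + PowerSeries.C 64 * US 2)) (by
      have h1 := (hasQ_e2.pow 2).sub (hasQ_v2.add (hasQ_u2.smul 64))
      rw [map_sub, map_pow, map_add, map_mul, toC_C]
      rw [PowerSeries.smul_eq_C_mul] at h1
      push_cast
      exact h1)
    ((1 / 4 : ℂ) • e2 ^ 2 - ((16 : ℂ) • uF 2 + (1 / 4 : ℂ) • vF 2)) _
    (((hasQ_e2.pow 2).smul (1 / 4)).sub ((hasQ_u2.smul 16).add (hasQ_v2.smul (1 / 4)))) (by
      intro τ
      simp only [Pi.sub_apply, Pi.add_apply, Pi.smul_apply, Pi.pow_apply, smul_eq_mul]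
      rw [vF_S 2 hκ2, uF_S 2 hκ2, e2_S]
      push_cast
      ring) (by
      have hE : CoL E2T [1, 24] := by
        intro n hn
        obtain ⟨c0, c1⟩ := E2T_coeff
        have hn' : n < 2 := hn
        interval_cases n
        · exact c0
        · exact c1
      have hu : CoL (US 2) [0, 1] := by
        intro n hn
        have hn' : n < 2 := hn
        rw [coL_US2 n (by simp only [List.length_cons, List.length_nil]; omega)]
        interval_cases n <;> rfl
      have hv : CoL (VS 2 16) [1, -16] := by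
        intro n hn
        have hn' : n < 2 := hn
        rw [coL_VS2 n (by simp only [List.length_cons, List.length_nil]; omega)]
        interval_cases n <;> rfl
      have h : CoL (E2T ^ 2 - (VS 2 16 + PowerSeries.C 64 * US 2)) [0, 0] := by
        rw [pow_two]
        exact ((hE.mul hE (by decide)).sub (hv.add (hu.smul 64) (by decide))
          (by decide)).congr (by decide)
      intro n hn
      have hn' : n ≤ 1 := by simpa using hn
      rw [h n (by simp only [List.length_cons, List.length_nil]; omega)]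
      interval_cases n <;> rfl)
  have h := congrFun key τ
  simp only [Pi.sub_apply, Pi.add_apply, Pi.smul_apply, Pi.pow_apply, smul_eq_mul,
    Pi.zero_apply] at h
  linear_combination h

end Fermat.Agent.CB
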