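import Mathlib
import Fermat.Agent.CB.Psi

/-!
# The modular unit in the function field
-/

set_option autoImplicit false
set_option linter.unusedSectionVars false
set_option linter.style.haveILetI false

noncomputable section

namespace Fermat.Agent.CB

open UpperHalfPlane hiding I J
open ModularForm
open scoped Manifold MatrixGroups ModularForm
open Fermat.Agent.Eis16 Fermat.Agent.ModFun Fermat.Agent.ESCore Fermat.Agent.LG
open Fermat.Agent.ESCore.Gal
open CongruenceSubgroup (Gamma0 Gamma0_mem)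
open Complex (I)

/-- The properties of the multiplier which are used. -/
structure PhiData (p b q M : ℕ) [NeZero p] (m : ℤ → ℤ → ℂ) (ε : ℤ) : Prop where
  tl : ∀ γ : SL(2, ℤ), γ ∈ Gamma0 p → TL p b γ (m (γ 1 0) (γ 1 1))
  dvd : p ∣ M
  inv : ∀ c d : ℤ, m (q * (M * c)) d = m (M * c) d
  eps : ∀ w : ℤ, IsCoprime w M → m M (q * w) = ε * m M w
  sq : ε ^ 2 = 1

section Cases

theorem mult2_inv {q M : ℕ} (hq : Odd q) (hM : 4 ∣ M) (c d : ℤ) :
    mult2 (q * (M * c)) d = mult2 (M * c) d := by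
  obtain ⟨n, rfl⟩ := hM
  obtain ⟨k, rfl⟩ := hq
  have h1 : (((2 * k + 1 : ℕ) : ℤ) * (((4 * n : ℕ) : ℤ) * c)) / 2 = (2 * k + 1) * (2 * n * c) := by
    have : (((2 * k + 1 : ℕ) : ℤ) * (((4 * n : ℕ) : ℤ) * c)) = 2 * ((2 * k + 1) * (2 * n * c)) := by
      push_cast; ring
    rw [this, Int.mul_ediv_cancel_left _ two_ne_zero]
  have h2 : (((4 * n : ℕ) : ℤ) * c) / 2 = 2 * n * c := by
    have : (((4 * n : ℕ) : ℤ) * c) = 2 * (2 * n * c) := by push_cast; ring
    rw [this, Int.mul_ediv_cancel_left _ two_ne_zero]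
  rw [mult2, mult2, h1, h2]
  refine zpow_congr Complex.I_ne_zero I_zpow_four ⟨-(k * n * c * d), ?_⟩
  ring

theorem mult2_eps {q M : ℕ} (hq : Odd q) (hM : 4 ∣ M) (w : ℤ) (hw : IsCoprime w M) :
    mult2 M (q * w) = (if q % 4 = 1 then (1 : ℤ) else -1 : ℤ) * mult2 M w := by
  obtain ⟨n, rfl⟩ := hM
  have hw2 : w % 2 = 1 := by
    have h1 : IsCoprime w 2 := by
      refine hw.of_isCoprime_of_dvd_right ⟨2 * n, ?_⟩
      push_cast; ring
    rcases Int.even_or_odd w with ⟨k, hk⟩ | ⟨k, hk⟩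
    · exfalso
      have h3 := h1.isUnit_of_dvd' (x := 2) ⟨k, by omega⟩ dvd_rfl
      rw [Int.isUnit_iff] at h3
      omega
    · omega
  have h2 : (((4 * n : ℕ) : ℤ)) / 2 = 2 * n := by
    have : (((4 * n : ℕ) : ℤ)) = 2 * (2 * n) := by push_cast; ring
    rw [this, Int.mul_ediv_cancel_left _ two_ne_zero]
  obtain ⟨v, rfl⟩ : ∃ v, w = 2 * v + 1 := ⟨w / 2, by omega⟩
  rw [mult2, mult2, h2]
  have hq2 : q % 4 = 1 ∨ q % 4 = 3 := by
    obtain ⟨k, rfl⟩ := hq
    omega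
  rcases hq2 with h | h
  · rw [if_pos h]
    obtain ⟨k, rfl⟩ : ∃ k, q = 4 * k + 1 := ⟨q / 4, by omega⟩
    push_cast
    rw [one_mul]
    refine zpow_congr Complex.I_ne_zero I_zpow_four
      ⟨(2 * v + 1) * k - 2 * n * k * (2 * v + 1), ?_⟩
    push_cast
    ring
  · rw [if_neg (by omega)]
    obtain ⟨k, rfl⟩ : ∃ k, q = 4 * k + 3 := ⟨q / 4, by omega⟩
    have h5 : ((-1 : ℤ) : ℂ) * I ^ (2 * v + 1 - 1 - 2 * (n : ℤ) * (2 * v + 1)) =
        I ^ (2 * v + 1 - 1 - 2 * (n : ℤ) * (2 * v + 1) + 2) := by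
      rw [zpow_add₀ Complex.I_ne_zero]
      have : (I : ℂ) ^ (2 : ℤ) = -1 := by
        have : (I : ℂ) ^ (2 : ℤ) = I ^ (2 : ℕ) := by norm_cast
        rw [this, Complex.I_sq]
      rw [this]
      push_cast
      ring
    rw [h5]
    refine zpow_congr Complex.I_ne_zero I_zpow_four
      ⟨k * (2 * v + 1) + v - n * (2 * v + 1) * (2 * k + 1), ?_⟩
    push_cast
    ring

theorem phiData_two {q M : ℕ} (hq : Odd q) (hM : 4 ∣ M) :
    PhiData 2 2 q M mult2 (if q % 4 = 1 then (1 : ℤ) else -1) where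
  tl γ hγ := phi_smul_two hγ
  dvd := (by norm_num : 2 ∣ 4).trans hM
  inv := mult2_inv hq hM
  eps := mult2_eps hq hM
  sq := by split_ifs <;> norm_num

theorem chi3_mul {a b : ℤ} (ha : ¬ (3 : ℤ) ∣ a) (hb : ¬ (3 : ℤ) ∣ b) :
    chi3 (a * b) = chi3 a * chi3 b := by
  have h1 : a % 3 = 1 ∨ a % 3 = 2 := by omega
  have h2 : b % 3 = 1 ∨ b % 3 = 2 := by omega
  have h3 : (a * b) % 3 = ((a % 3) * (b % 3)) % 3 := Int.mul_emod a b 3
  rw [chi3, chi3, chi3, h3]
  rcases h1 with h1 | h1 <;> rcases h2 with h2 | h2 <;> rw [h1, h2] <;> norm_num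

theorem mult3_nine {c d : ℤ} (h : 9 ∣ c) : mult3 c d = chi3 d := by
  obtain ⟨k, rfl⟩ := h
  have h1 : (9 * k) / 3 = 3 * k := by omega
  rw [mult3, h1]
  have h2 : nu 3 ^ (3 * k * d) = nu 3 ^ (0 : ℤ) :=
    zpow_congr (nu_ne_zero 3) nu3_zpow ⟨k * d, by ring⟩
  rw [h2, zpow_zero, mul_one]

theorem phiData_three {q M : ℕ} (hq : ¬ 3 ∣ q) (hM : 9 ∣ M) :
    PhiData 3 1 q M mult3 (if (q : ℤ) % 3 = 1 then (1 : ℤ) else -1) where
  tl γ hγ := phi_smul_three hγ
  dvd := (by norm_num : 3 ∣ 9).trans hM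
  inv c d := by
    have h : (9 : ℤ) ∣ M := by exact_mod_cast hM
    rw [mult3_nine ((h.mul_right c).mul_left _), mult3_nine (h.mul_right c)]
  eps w hw := by
    have h : (9 : ℤ) ∣ M := by exact_mod_cast hM
    have hw3 : ¬ (3 : ℤ) ∣ w := by
      intro h1
      have h2 : IsCoprime w 3 := hw.of_isCoprime_of_dvd_right
        ((by norm_num : (3 : ℤ) ∣ 9).trans h)
      have h3 := h2.isUnit_of_dvd' h1 dvd_rfl
      rw [Int.isUnit_iff] at h3
      omega
    have hq3 : ¬ (3 : ℤ) ∣ q := by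
      intro h1
      apply hq
      exact_mod_cast h1
    rw [mult3_nine h, mult3_nine h, chi3_mul hq3 hw3]
    congr 1
    rw [chi3]
    split_ifs <;> simp
  sq := by split_ifs <;> norm_num

end Cases

section Inv

variable {p b q M : ℕ} [NeZero p] [NeZero q] {m : ℤ → ℤ → ℂ} {ε : ℤ}

theorem PhiData.psi_smul (h : PhiData p b q M m ε) {N : ℕ} (hN : N = q * M) {γ : SL(2, ℤ)}
    (hγ : γ ∈ Gamma0 N) (τ : ℍ) : psi p b q (γ • τ) = psi p b q τ := by
  subst hN
  obtain ⟨r, hr⟩ := dvd_of_mem hγ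
  obtain ⟨s, hs⟩ := h.dvd
  have hdet := det_eq γ
  have hr' : γ 1 0 = q * (M * r) := by rw [hr]; push_cast; ring
  let γ' : SL(2, ℤ) := ⟨!![γ 0 0, q * γ 0 1; M * r, γ 1 1], by
    rw [Matrix.det_fin_two_of]
    rw [hr'] at hdet
    linear_combination hdet⟩
  have e1 : γ' 1 0 = M * r := rfl
  have e2 : γ' 1 1 = γ 1 1 := rfl
  have h1 := tri_smul (d := q) (γ := γ) (γ' := γ') (a := q) (d' := 1) (b := 0)
    (by simp [γ']; ring) (by simp [γ']) (by simp [γ', hr']; ring) (by simp [γ']) τ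
  have hm1 : γ ∈ Gamma0 p := mem_of_dvd (by
    rw [hr', hs]
    exact ⟨q * (s * r), by push_cast; ring⟩)
  have hm2 : γ' ∈ Gamma0 p := mem_of_dvd (by
    rw [e1, hs]
    exact ⟨s * r, by push_cast; ring⟩)
  have t1 := h.tl γ hm1 τ
  have t2 := h.tl γ' hm2 (tri q 0 1 τ)
  rw [psi, h1, t1, t2, psi, e1, e2, hr', h.inv]
  have n1 : m (M * r) (γ 1 1) ≠ 0 := by
    intro h0
    rw [e1, e2, h0, zero_mul, zero_mul] at t2
    exact phi_ne_zero _ _ _ t2
  have n2 : (((q * (M * r) : ℤ) : ℂ)) * (τ : ℂ) + γ 1 1 ≠ 0 := by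
    rw [← hr']
    exact denom_SL_ne_zero γ τ
  have n3 : ((M * r : ℤ) : ℂ) * (tri q 0 1 τ : ℂ) + γ 1 1 =
      (((q * (M * r) : ℤ) : ℂ)) * (τ : ℂ) + γ 1 1 := by
    rw [coe_tri]
    push_cast
    ring
  rw [n3, mul_inv, mul_inv]
  have n4 := phi_ne_zero p b (tri q 0 1 τ)
  field_simp

theorem PhiData.isInv (h : PhiData p b q M m ε) {N : ℕ} [NeZero N] (hN : N = q * M) :
    IsInv N (psi p b q) := fun _ hγ τ => h.psi_smul hN hγ τ

theorem PhiData.slash_psi (h : PhiData p b q M m ε) [NeZero M] (B : Bez q M) (τ : ℍ) :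
    psi p b q (B.W τ) * psi p b q τ = ε * q := by
  have h0 := h.tl B.g0 (mem_of_dvd (by
    change (p : ℤ) ∣ M
    exact_mod_cast h.dvd)) (tri q 0 1 τ)
  have h1 := h.tl B.g1 (mem_of_dvd (by
    change (p : ℤ) ∣ M
    exact_mod_cast h.dvd)) τ
  have e1 : tri q 0 1 (B.W τ) = B.g1 • τ := by
    have := B.W_eq (d := 1) τ
    have e2 : tri 1 0 1 (B.g1 • τ) = B.g1 • τ := by
      apply UpperHalfPlane.ext
      rw [coe_tri]
      push_cast
      ring
    rw [e2] at this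
    rw [← this]
    apply UpperHalfPlane.ext
    rw [coe_tri, coe_tri]
    push_cast
    ring
  have a0 : B.g0 1 0 = M := rfl
  have a1 : B.g0 1 1 = q * B.w := rfl
  have a2 : B.g1 1 0 = M := rfl
  have a3 : B.g1 1 1 = B.w := rfl
  rw [a0, a1] at h0
  rw [a2, a3] at h1
  rw [psi, e1, h1, psi]
  have e3 : B.W τ = B.g0 • tri q 0 1 τ := rfl
  rw [e3, h0, h.eps B.w ⟨q, -B.y, by linarith [B.det]⟩]
  have n1 : m M B.w ≠ 0 := by
    intro hz
    rw [hz, zero_mul, zero_mul] at h1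
    exact phi_ne_zero _ _ _ h1
  have n2 : ((M : ℤ) : ℂ) * (τ : ℂ) + (B.w : ℂ) ≠ 0 := by
    have := denom_SL_ne_zero B.g1 τ
    rw [a2, a3] at this
    exact this
  have n3 : ((M : ℤ) : ℂ) * (tri q 0 1 τ : ℂ) + ((q * B.w : ℤ) : ℂ) =
      q * (((M : ℤ) : ℂ) * (τ : ℂ) + (B.w : ℂ)) := by
    rw [coe_tri]
    push_cast
    ring
  rw [n3]
  have n4 := phi_ne_zero p b (tri q 0 1 τ)
  have n5 := phi_ne_zero p b τ
  field_simp

end Inv

section Field

variable {p b q M : ℕ} [NeZero p] [NeZero q] {m : ℤ → ℤ → ℂ} {ε : ℤ} {K : Type*} [Field K]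

variable (p b q K) in
/-- The expansion of `psi`. -/
def PsiS : LaurentSeries K := PhiS p b K * ModularCurve.qExpand K q (PhiSi p b K)

variable (p b q K) in
/-- The expansion of `psi⁻¹`. -/
def PsiSi : LaurentSeries K := PhiSi p b K * ModularCurve.qExpand K q (PhiS p b K)

theorem PsiS_mul_PsiSi : PsiS p b q K * PsiSi p b q K = 1 := by
  have h1 := PhiS_mul_PhiSi p b K
  have h2 : ModularCurve.qExpand K q (PhiSi p b K) * ModularCurve.qExpand K q (PhiS p b K) = 1 := by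
    rw [← map_mul, mul_comm, h1, map_one]
  rw [PsiS, PsiSi]
  linear_combination (ModularCurve.qExpand K q (PhiSi p b K) *
    ModularCurve.qExpand K q (PhiS p b K)) * h1 + h2

theorem PsiS_mul : PsiS p b q K * ModularCurve.qExpand K q (PhiS p b K) = PhiS p b K := by
  have h2 : ModularCurve.qExpand K q (PhiSi p b K) * ModularCurve.qExpand K q (PhiS p b K) = 1 := by
    rw [← map_mul, mul_comm, PhiS_mul_PhiSi, map_one]
  rw [PsiS, mul_assoc, h2, mul_one]

theorem hasExp_psi (ι : K →+* ℂ) : HasExp ι (qN 1) (psi p b q) (PsiS p b q K) := by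
  have h1 := (hasExp_phi_inv p b ι).qExpand (s' := qN 1) q (fun τ => tri q 0 1 τ)
    (fun τ => qN_one_tri_one q τ)
  exact (hasExp_phi p b ι).mul h1

theorem hasExp_psi_inv (ι : K →+* ℂ) : HasExp ι (qN 1) (psi p b q)⁻¹ (PsiSi p b q K) := by
  have h1 := (hasExp_phi p b ι).qExpand (s' := qN 1) q (fun τ => tri q 0 1 τ)
    (fun τ => qN_one_tri_one q τ)
  refine ((hasExp_phi_inv p b ι).mul h1).congr fun τ => ?_
  rw [Pi.inv_apply, psi, mul_inv, inv_inv]
  rfl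

variable {N : ℕ} [NeZero N]

theorem PhiData.psi_mem (h : PhiData p b q M m ε) (hN : N = q * M) (ι : K →+* ℂ) :
    PsiS p b q K ∈ holC ι N ∧ PsiSi p b q K ∈ holC ι N := by
  obtain ⟨h1, h2⟩ := psi_mem_MB p b q
  have hi := h.isInv hN
  have hi' : IsInv N (psi p b q)⁻¹ := fun γ hγ τ => by
    rw [Pi.inv_apply, Pi.inv_apply, hi γ hγ]
  exact ⟨⟨_, mem_modFun_of_MB h1 hi, hi, hasExp_psi ι⟩,
    ⟨_, mem_modFun_of_MB h2 hi', hi', hasExp_psi_inv ι⟩⟩

/-- The element of the function field. -/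
def PhiData.el (h : PhiData p b q M m ε) (hN : N = q * M) (ι : K →+* ℂ) : F0 K N :=
  ⟨PsiS p b q K, mem_F0_of_holC (h.psi_mem hN ι).1⟩

theorem PhiData.coe_el (h : PhiData p b q M m ε) (hN : N = q * M) (ι : K →+* ℂ) :
    (h.el hN ι : LaurentSeries K) = PsiS p b q K := rfl

theorem PhiData.coe_el_inv (h : PhiData p b q M m ε) (hN : N = q * M) (ι : K →+* ℂ) :
    (((h.el hN ι)⁻¹ : F0 K N) : LaurentSeries K) = PsiSi p b q K := by
  have h1 : (((h.el hN ι)⁻¹ : F0 K N) : LaurentSeries K) = (PsiS p b q K)⁻¹ := rfl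
  rw [h1]
  exact inv_eq_of_mul_eq_one_right PsiS_mul_PsiSi

/-- (i) -/
theorem PhiData.el_mul (h : PhiData p b q M m ε) (hN : N = q * M) (ι : K →+* ℂ) :
    (h.el hN ι : LaurentSeries K) * ModularCurve.qExpand K q (PhiS p b K) = PhiS p b K :=
  PsiS_mul

/-- (ii) -/
theorem PhiData.wF_el (h : PhiData p b q M m ε) [NeZero M] (hq : q.Prime) (hN : N = q * M)
    (ι : K →+* ℂ) (B : Bez q M) :
    B.wF ι hq hN (h.el hN ι) * h.el hN ι = algebraMap K (F0 K N) (ε * q) := by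
  have hz : HasExp (RingHom.id ℂ) (qN 1) (B.slash (psi p b q))
      (HahnSeries.C ((ε : ℂ) * q) * PsiSi p b q ℂ) := by
    have h1 := (hasExp_psi_inv (p := p) (b := b) (q := q) (RingHom.id ℂ)).smul ((ε : ℂ) * q)
    refine h1.congr fun τ => ?_
    rw [B.slash_apply]
    have h2 := h.slash_psi B τ
    have h3 := psi_ne_zero p b q τ
    rw [RingHom.id_apply, Pi.inv_apply, ← h2]
    field_simp
  have h1 := B.wF_hasExp hq hN (h := h.el hN ι) (hasExp_psi ι) hz
  apply Subtype.ext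
  have hinj : Function.Injective (ModularCurve.coeffMap ι) :=
    RingHom.injective (ModularCurve.coeffMap ι)
  apply hinj
  have h4 : ((B.wF ι hq hN (h.el hN ι) * h.el hN ι : F0 K N) : LaurentSeries K) =
      (B.wF ι hq hN (h.el hN ι) : LaurentSeries K) * PsiS p b q K := rfl
  rw [h4, map_mul, h1]
  have h5 : ModularCurve.coeffMap ι (PsiS p b q K) = PsiS p b q ℂ := by
    refine ((hasExp_psi ι).coeffMap ι (RingHom.id_comp ι)).unique Function.injective_id
      (isParam_qN 1) (hasExp_psi (RingHom.id ℂ))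
  rw [h5, mul_assoc, mul_comm (PsiSi p b q ℂ), PsiS_mul_PsiSi, mul_one]
  have h6 : ((algebraMap K (F0 K N) (ε * q) : F0 K N) : LaurentSeries K) =
      HahnSeries.C ((ε : K) * q) := by
    change algebraMap K (LaurentSeries K) _ = _
    rw [ModularCurve.algebraMap_laurentSeries_eq_single]
    rfl
  rw [h6]
  ext n
  rw [ModularCurve.coeffMap_coeff, HahnSeries.C_apply, HahnSeries.C_apply,
    HahnSeries.coeff_single, HahnSeries.coeff_single]
  split_ifs
  · rw [map_mul, map_intCast, map_natCast]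
  · rw [map_zero]

end Field

end Fermat.Agent.CB
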