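import Mathlib
import Fermat.Agent.CB.Unit
import Fermat.Agent.LG.GRPlace

/-!
# Integrality over the ring of functions regular away from the cusps
-/

set_option autoImplicit false
set_option linter.unusedSectionVars false

noncomputable section

namespace Fermat.Agent.CB

open UpperHalfPlane hiding I J
open ModularForm
open scoped Manifold MatrixGroups ModularForm
open Fermat.Agent.Eis16 Fermat.Agent.ModFun Fermat.Agent.ESCore Fermat.Agent.LG
open Fermat.Agent.ESCore.Gal
open CongruenceSubgroup (Gamma0 Gamma0_mem)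

section

variable {p : ℕ} [Fact p.Prime] {κ : ℤ} {H : HauptFn p κ} {S : Set ℤ} {k : ℕ}
  {P : Polynomial ℤ} {K : Type*} [Field K] {ι : K →+* ℂ} {N : ℕ} [NeZero N]
  {E : Type*} [Field E] [Algebra K E]

theorem isIntegral_of_holC (h : HautData H S k P) (i : E →ₐ[K] LaurentSeries K) {t x : E}
    (ht : i t = tS K p κ) (hx : i x ∈ holC ι N) :
    IsIntegral (Algebra.adjoin K {t, t⁻¹}) x := by
  have hi : Function.Injective i := RingHom.injective (i : E →+* LaurentSeries K)
  have ht0 : t ≠ 0 := by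
    rintro rfl
    have h1 := coeff_tS_neg_one (R := K) (p := p) (κ := κ)
    rw [← ht, map_zero, HahnSeries.coeff_zero] at h1
    exact zero_ne_one h1
  have htm : t ∈ Algebra.adjoin K {t, t⁻¹} := Algebra.subset_adjoin (by simp)
  have htm' : t⁻¹ ∈ Algebra.adjoin K {t, t⁻¹} := Algebra.subset_adjoin (by simp)
  -- `j` in terms of `t`
  set j : E := Polynomial.aeval t (P.map (Int.castRingHom K)) * t⁻¹ ^ k with hj
  have hC : algebraMap K (LaurentSeries K) = HahnSeries.C := by
    ext1 a
    rw [ModularCurve.algebraMap_laurentSeries_eq_single]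
    rfl
  have hij : i j = ModularCurve.jqModC K := by
    have h1 := h.series ι
    have h2 : i (Polynomial.aeval t (P.map (Int.castRingHom K))) =
        Polynomial.aeval (i t) (P.map (Int.castRingHom K)) :=
      (Polynomial.aeval_algHom_apply i t _).symm
    have ht0' : i t ≠ 0 := by
      rw [Ne, map_eq_zero_iff i hi]
      exact ht0
    rw [hj, map_mul, h2, map_pow, map_inv₀, Polynomial.aeval_def, hC, ht, ← h1, mul_assoc]
    rw [ht] at ht0'
    rw [← mul_pow, mul_inv_cancel₀ ht0', one_pow, mul_one]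
  have hjm : j ∈ Algebra.adjoin K {t, t⁻¹} := by
    refine mul_mem ?_ (pow_mem htm' _)
    have h1 : Polynomial.aeval t (P.map (Int.castRingHom K)) =
        ((Polynomial.aeval (⟨t, htm⟩ : Algebra.adjoin K {t, t⁻¹})
          (P.map (Int.castRingHom K)) : Algebra.adjoin K {t, t⁻¹}) : E) := by
      have := Polynomial.aeval_algHom_apply (Algebra.adjoin K {t, t⁻¹}).val
        (⟨t, htm⟩ : Algebra.adjoin K {t, t⁻¹}) (P.map (Int.castRingHom K))
      exact this
    rw [h1]
    exact Subtype.property _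
  obtain ⟨Q, hm, -, hQ⟩ := exists_eval₂_eq_zero hx
  let g : Polynomial K →+* Algebra.adjoin K {t, t⁻¹} :=
    (Polynomial.aeval (⟨j, hjm⟩ : Algebra.adjoin K {t, t⁻¹})).toRingHom
  have hg : (i : E →+* LaurentSeries K).comp ((algebraMap (Algebra.adjoin K {t, t⁻¹}) E).comp g) =
      (Polynomial.aeval (R := K) (ModularCurve.jqModC K)).toRingHom := by
    refine Polynomial.ringHom_ext (fun a => ?_) ?_
    · simp [g, hC]
    · simp [g, hij]
  refine ⟨Q.map g, hm.map g, ?_⟩
  apply hi
  have h3 := Polynomial.hom_eval₂ (Q.map g) (algebraMap (Algebra.adjoin K {t, t⁻¹}) E)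
    (i : E →+* LaurentSeries K) x
  rw [map_zero]
  refine h3.trans ?_
  rw [Polynomial.eval₂_map, RingHom.comp_assoc, hg]
  exact hQ

end

section

variable {p b q M : ℕ} [Fact p.Prime] [NeZero q] {m : ℤ → ℤ → ℂ} {ε : ℤ} {K : Type*} [Field K]
  {κ : ℤ} {H : HauptFn p κ} {S : Set ℤ} {k : ℕ} {P : Polynomial ℤ} {N : ℕ} [NeZero N]

/-- (iii), over any extension -/
theorem PhiData.isIntegral (h : PhiData p b q M m ε) (hN : N = q * M) (ι : K →+* ℂ)
    (hH : HautData H S k P) {E : Type*} [Field E] [Algebra K E] (i : E →ₐ[K] LaurentSeries K)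
    {t x : E} (ht : i t = tS K p κ) (hx : i x = PsiS p b q K) :
    IsIntegral (Algebra.adjoin K {t, t⁻¹}) x ∧ IsIntegral (Algebra.adjoin K {t, t⁻¹}) x⁻¹ := by
  obtain ⟨h1, h2⟩ := h.psi_mem hN ι
  refine ⟨isIntegral_of_holC (N := N) (ι := ι) hH i ht (hx ▸ h1),
    isIntegral_of_holC (N := N) (ι := ι) hH i ht ?_⟩
  have h3 : i x⁻¹ = PsiSi p b q K := by
    rw [map_inv₀, hx]
    exact inv_eq_of_mul_eq_one_right (PsiS_mul_PsiSi (p := p) (b := b) (q := q))
  rw [h3]
  exact h2

/-- (iii) -/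
theorem PhiData.isIntegral_el (h : PhiData p b q M m ε) (hN : N = q * M) (ι : K →+* ℂ)
    (hH : HautData H S k P) {t : F0 K N} (ht : (t : LaurentSeries K) = tS K p κ) :
    IsIntegral (Algebra.adjoin K {t, t⁻¹}) (h.el hN ι) ∧
      IsIntegral (Algebra.adjoin K {t, t⁻¹}) (h.el hN ι)⁻¹ :=
  h.isIntegral hN ι hH (F0 K N).val ht rfl

end

end Fermat.Agent.CB
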