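import Mathlib
import Fermat.Agent.CB.Integral
import Fermat.Agent.CB.Deriv
import Fermat.Agent.LG.GVal

/-!
# The square root of `1 + 64 / t` at level four
-/

set_option autoImplicit false
set_option linter.unusedSectionVars false

noncomputable section

namespace Fermat.Agent.CB

open UpperHalfPlane hiding I J
open ModularForm
open scoped Manifold MatrixGroups ModularForm
open Fermat.Agent.Eis16 Fermat.Agent.ModFun Fermat.Agent.ESCore Fermat.Agent.LG
open Fermat.Agent.ESCore.Gal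
open CongruenceSubgroup (Gamma0 Gamma0_mem)
open Complex (I)

local notation "Δ" => ModularForm.discriminant

theorem eq_of_pow_eq {A B : PowerSeries ℤ} (hA : PowerSeries.constantCoeff A = 1)
    (hB : PowerSeries.constantCoeff B = 1) {n : ℕ} (hn : 0 < n) (h : A ^ n = B ^ n) : A = B := by
  have h1 := Commute.geom_sum₂_mul (Commute.all A B) n
  rw [h, sub_self, mul_eq_zero] at h1
  rcases h1 with h1 | h1
  · exfalso
    have h2 := congrArg PowerSeries.constantCoeff h1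
    rw [map_sum, map_zero] at h2
    have h3 : ∀ i ∈ Finset.range n, PowerSeries.constantCoeff (A ^ i * B ^ (n - 1 - i)) = 1 := by
      intro i _
      rw [map_mul, map_pow, map_pow, hA, hB, one_pow, one_pow, one_mul]
    rw [Finset.sum_congr rfl h3] at h2
    simp at h2
    omega
  · exact sub_eq_zero.mp h1

theorem constantCoeff_VS : PowerSeries.constantCoeff (VS 2 16) = 1 := coeff_zero_VS 2 16

theorem phi_pow_four : PhiZ 2 2 ^ 4 = VS 2 16 := by
  refine eq_of_pow_eq (n := 6) (by rw [map_pow, constantCoeff_PhiZ, one_pow])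
    constantCoeff_VS (by norm_num) ?_
  apply toC_injective
  rw [← pow_mul, map_pow, map_pow]
  refine HasQ.unique one_pos ((hasQ_phi 2 2).pow (4 * 6)) ((hasQ_v2.pow 6).congr fun τ => ?_)
  have h1 := phi_pow 2 2 τ
  rw [tri_eq_up] at h1
  have h2 := D_eq_v2u τ
  have h3 : Δ (up 2 τ) = vF 2 τ * uF 2 τ ^ 2 := Dp_eq_vu2 τ
  have hv := vF2_ne τ
  have hu : uF 2 τ ≠ 0 := by
    intro hu
    apply discriminant_ne_zero τ
    rw [h2, hu, mul_zero]
  rw [h2, h3] at h1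
  have h4 : (vF 2 τ * uF 2 τ ^ 2) ^ 2 ≠ 0 := by positivity
  apply mul_right_cancel₀ h4
  simp only [Pi.pow_apply]
  rw [h1]
  ring

theorem phi_four (τ : ℍ) : phi 2 2 τ ^ 4 = vF 2 τ := by
  have h1 := (hasQ_phi 2 2).pow 4
  rw [← map_pow, phi_pow_four] at h1
  exact congrFun (HasQ.ext h1 hasQ_v2) τ

/-- The series of `T`. -/
def TZ4 : PowerSeries ℤ := E2T * PhiZi 2 2 ^ 2

theorem constantCoeff_TZ4 : PowerSeries.constantCoeff TZ4 = 1 := by
  rw [TZ4, map_mul, map_pow, PhiZi, PowerSeries.constantCoeff_invOfUnit,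
    ← PowerSeries.coeff_zero_eq_constantCoeff_apply, E2T_coeff.1]
  simp

theorem VS_ne_zero : VS 2 16 ≠ 0 := by
  intro h
  have := constantCoeff_VS
  rw [h, map_zero] at this
  exact zero_ne_one this

theorem E2T_sq : E2T ^ 2 = VS 2 16 + PowerSeries.C 64 * US 2 := by
  apply toC_injective
  rw [map_pow, map_add, map_mul, toC_C]
  have h1 := hasQ_v2.add (hasQ_u2.smul 64)
  rw [PowerSeries.smul_eq_C_mul] at h1
  push_cast
  refine HasQ.unique one_pos (hasQ_e2.pow 2) (h1.congr fun τ => ?_)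
  simp only [Pi.add_apply, Pi.smul_apply, Pi.pow_apply, smul_eq_mul]
  rw [e2_sq]

theorem TZ4_mul : TZ4 * PhiZ 2 2 ^ 2 = E2T := by
  have h := PhiZ_mul_PhiZi 2 2
  rw [TZ4]
  linear_combination (E2T * (PhiZ 2 2 * PhiZi 2 2 + 1)) * h

theorem TZ4_sq : TZ4 ^ 2 = 1 + PowerSeries.C 64 * TS 2 16 := by
  apply mul_right_cancel₀ VS_ne_zero
  have h1 : TZ4 ^ 2 * VS 2 16 = E2T ^ 2 := by
    rw [← phi_pow_four, ← TZ4_mul]
    ring
  rw [h1, E2T_sq, add_mul, one_mul, mul_assoc, mul_comm (TS 2 16), VS_mul_TS]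

theorem thP_TZ4 : thP TZ4 = PowerSeries.C 32 * (PhiZ 2 2 ^ 2 * TS 2 16) := by
  have h1 := congrArg thP TZ4_sq
  rw [pow_two, thP_mul, thP_add, thP_one, thP_C_mul, thP_TS, ← TZ4_mul] at h1
  have h2 : (2 * TZ4 : PowerSeries ℤ) ≠ 0 := by
    intro h
    have := congrArg PowerSeries.constantCoeff h
    rw [map_mul, constantCoeff_TZ4, map_zero, map_ofNat] at this
    norm_num at this
  apply mul_left_cancel₀ h2
  have h3 : (PowerSeries.C 64 : PowerSeries ℤ) = 2 * PowerSeries.C 32 := by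
    rw [← map_ofNat PowerSeries.C 2, ← map_mul]
    norm_num
  rw [h3] at h1
  linear_combination h1

/-- the function `T` -/
def T4 (τ : ℍ) : ℂ := e2 τ * (phi 2 2 τ)⁻¹ ^ 2

theorem T4_sq (τ : ℍ) : T4 τ ^ 2 = 1 + 64 * t2 τ := by
  have h1 := phi_four τ
  have h2 := e2_sq τ
  have h3 := vF2_ne τ
  have h4 := phi_ne_zero 2 2 τ
  rw [T4, mul_pow, h2, t2_eq, ← pow_mul, inv_pow, h1]
  field_simp

theorem mdiff_T4 : MDiff T4 := by
  have h1 := (hasQ_e2.mul ((hasQ_phi_inv 2 2).pow 2)).mdiff one_pos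
  exact h1

theorem T4_mem_MB : T4 ∈ MB := by
  refine MB_of_pow mdiff_T4 (n := 2) (by norm_num) ?_
  have h1 : T4 ^ 2 = 1 + 64 * ud 2 := by
    funext τ
    simp only [Pi.pow_apply, Pi.add_apply, Pi.mul_apply, Pi.one_apply]
    rw [T4_sq, t2_eq_div, ud, tri_eq_up]
    rfl
  rw [h1]
  exact add_mem (one_mem _) (mul_mem (ofNat_mem _ 64) (ud_mem_MB 2).1)

theorem T4_inv {M : ℕ} [NeZero M] (hM : 4 ∣ M) : IsInv M T4 := by
  intro γ hγ τ
  obtain ⟨r, hr⟩ := dvd_of_mem hγ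
  obtain ⟨s, rfl⟩ := hM
  have hmem : γ ∈ Gamma0 2 := mem_of_dvd (by
    rw [hr]
    exact ⟨2 * s * r, by push_cast; ring⟩)
  have h1 := phi_smul_two hmem τ
  have h2 := e2_smul hmem τ
  rw [denom_eq] at h2
  rw [T4, T4, h1, h2]
  have n1 := denom_SL_ne_zero γ τ
  have n2 := phi_ne_zero 2 2 τ
  have hd : γ 1 1 % 2 = 1 := by
    have := not_dvd_11 one_lt_two hmem
    push_cast at this
    omega
  have h3 : mult2 (γ 1 0) (γ 1 1) ^ 2 = 1 := by
    have e1 : γ 1 0 / 2 = 2 * (s * r) := by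
      rw [hr]
      have : ((4 * s : ℕ) : ℤ) * r = 2 * (2 * (s * r)) := by push_cast; ring
      rw [this, Int.mul_ediv_cancel_left _ two_ne_zero]
    rw [mult2, e1, ← zpow_natCast, ← zpow_mul]
    obtain ⟨k, hk⟩ : ∃ k, γ 1 1 = 2 * k + 1 := ⟨γ 1 1 / 2, by omega⟩
    have : (I : ℂ) ^ (0 : ℤ) = 1 := zpow_zero _
    rw [← this]
    refine zpow_congr Complex.I_ne_zero I_zpow_four ⟨k - s * r * γ 1 1, ?_⟩
    rw [hk]
    push_cast
    ring
  have h4 : mult2 (γ 1 0) (γ 1 1) ≠ 0 := by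
    intro h
    rw [h] at h3
    norm_num at h3
  rw [mul_inv, mul_inv, mul_pow, mul_pow, inv_pow _ 2, h3]
  field_simp

section

variable {K : Type*} [Field K] (ι : K →+* ℂ)

theorem hasExp_T4 : HasExp ι (qN 1) T4
    (ModularCurve.coeffMap (Int.castRingHom K) (HahnSeries.ofPowerSeries ℤ ℤ TZ4)) := by
  have h : HasQ 1 T4 (toC TZ4) := by
    rw [TZ4, map_mul, map_pow]
    exact hasQ_e2.mul ((hasQ_phi_inv 2 2).pow 2)
  exact (hasExp_of_hasQ h).coeffMap _ (RingHom.ext_int _ _)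

/-- the element `T` -/
def T4el {M : ℕ} [NeZero M] (hM : 4 ∣ M) : F0 K M :=
  ⟨ModularCurve.coeffMap (Int.castRingHom K) (HahnSeries.ofPowerSeries ℤ ℤ TZ4),
    mem_F0_of_holC (ι := ι) ⟨T4, mem_modFun_of_MB T4_mem_MB (T4_inv hM), T4_inv hM, hasExp_T4 ι⟩⟩

theorem tS_mul_TS : tS K 2 16 *
    ModularCurve.coeffMap (Int.castRingHom K) (HahnSeries.ofPowerSeries ℤ ℤ (TS 2 16)) = 1 := by
  rw [tS, tZ, ← map_mul, TS_eq, mul_assoc, ← map_mul]
  have h1 : TWi 2 16 * (PowerSeries.X * TW 2 16) = PowerSeries.X := by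
    have := TW_mul_TWi 2 16 (by norm_num)
    linear_combination PowerSeries.X * this
  rw [h1, HahnSeries.ofPowerSeries_X, HahnSeries.single_mul_single]
  simp

theorem inv_tS : (tS K 2 16)⁻¹ =
    ModularCurve.coeffMap (Int.castRingHom K) (HahnSeries.ofPowerSeries ℤ ℤ (TS 2 16)) :=
  inv_eq_of_mul_eq_one_right tS_mul_TS

theorem coeffMap_C (n : ℕ) (A : PowerSeries ℤ) : ModularCurve.coeffMap (Int.castRingHom K)
    (HahnSeries.ofPowerSeries ℤ ℤ (PowerSeries.C (n : ℤ) * A)) =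
    n * ModularCurve.coeffMap (Int.castRingHom K) (HahnSeries.ofPowerSeries ℤ ℤ A) := by
  rw [map_natCast, map_mul, map_mul, map_natCast, map_natCast]

theorem T4el_sq : (ModularCurve.coeffMap (Int.castRingHom K)
    (HahnSeries.ofPowerSeries ℤ ℤ TZ4)) ^ 2 = 1 + 64 * (tS K 2 16)⁻¹ := by
  rw [inv_tS, ← map_pow, ← map_pow, TZ4_sq, map_add, map_one, map_add, map_one]
  have := coeffMap_C (K := K) 64 (TS 2 16)
  have e : (PowerSeries.C (64 : ℤ) : PowerSeries ℤ) = PowerSeries.C ((64 : ℕ) : ℤ) := rfl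
  rw [e, this]
  norm_num

theorem thD_coeffMap (A : PowerSeries ℤ) : thD (ModularCurve.coeffMap (Int.castRingHom K)
    (HahnSeries.ofPowerSeries ℤ ℤ A)) = ModularCurve.coeffMap (Int.castRingHom K)
    (HahnSeries.ofPowerSeries ℤ ℤ (thP A)) := by
  ext n
  rw [thD_coeff, ModularCurve.coeffMap_coeff, ModularCurve.coeffMap_coeff]
  rcases lt_or_ge n 0 with hn | hn
  · rw [ModularCurve.ofPowerSeries_coeff_of_neg _ hn, ModularCurve.ofPowerSeries_coeff_of_neg _ hn,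
      map_zero, smul_zero]
  · obtain ⟨m, rfl⟩ := Int.eq_ofNat_of_zero_le hn
    rw [HahnSeries.ofPowerSeries_apply_coeff, HahnSeries.ofPowerSeries_apply_coeff, coeff_thP]
    simp

theorem thD_T4el : thD (ModularCurve.coeffMap (Int.castRingHom K)
    (HahnSeries.ofPowerSeries ℤ ℤ TZ4)) * tS K 2 16 = 32 * PhiS 2 2 K ^ 2 := by
  have h1 := coeffMap_C (K := K) 32 (PhiZ 2 2 ^ 2 * TS 2 16)
  have h2 := tS_mul_TS (K := K)
  have e : (PowerSeries.C (32 : ℤ) : PowerSeries ℤ) = PowerSeries.C ((32 : ℕ) : ℤ) := rfl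
  rw [thD_coeffMap, thP_TZ4, e, h1, map_mul, map_mul, map_pow, map_pow, PhiS]
  push_cast
  linear_combination (32 * (ModularCurve.coeffMap (Int.castRingHom K)
    (HahnSeries.ofPowerSeries ℤ ℤ (PhiZ 2 2))) ^ 2) * h2

end

end Fermat.Agent.CB
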