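import Mathlib
import Fermat.Agent.CB.Four
import Fermat.Agent.LG.GRHaupt

/-!
# The weight one form: summary
-/

set_option autoImplicit false
set_option linter.unusedSectionVars false

noncomputable section

namespace Fermat.Agent.CB

open Fermat.Agent.ModFun Fermat.Agent.ESCore Fermat.Agent.LG

universe u

section

variable {p b q M N : ℕ} [Fact p.Prime] [NeZero q] [NeZero M] [NeZero N] {m : ℤ → ℤ → ℂ} {ε : ℤ}
  {κ : ℤ} {H : HauptFn p κ} {S : Set ℤ} {k : ℕ} {P : Polynomial ℤ}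

theorem PhiData.exists_psi (h : PhiData p b q M m ε) (hH : HautData H S k P) (hq : q.Prime)
    (hN : N = q * M) {K : Type u} [Field K] (ι : K →+* ℂ) :
    ∃ ψ : F0 K N, (ψ : LaurentSeries K) = PsiS p b q K ∧
      (ψ : LaurentSeries K) * ModularCurve.qExpand K q (PhiS p b K) = PhiS p b K ∧
      (∀ B : Bez q M, B.wF ι hq hN ψ * ψ = algebraMap K (F0 K N) (ε * q)) ∧
      ∀ t : F0 K N, (t : LaurentSeries K) = tS K p κ →
        IsIntegral (Algebra.adjoin K {t, t⁻¹}) ψ ∧ IsIntegral (Algebra.adjoin K {t, t⁻¹}) ψ⁻¹ :=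
  ⟨h.el hN ι, rfl, h.el_mul hN ι, fun B => h.wF_el hq hN ι B,
    fun _ ht => h.isIntegral_el hN ι hH ht⟩

end

variable {q M N : ℕ} [NeZero q] [NeZero M] [NeZero N]

/-- (B4) for `p = 2` -/
theorem exists_psi_two (hq : q.Prime) (hq2 : q ≠ 2) (hM : 4 ∣ M) (hN : N = q * M) :
    ∃ ε : ℤ, ε ^ 2 = 1 ∧ ∀ {K : Type u} [Field K] (ι : K →+* ℂ),
    ∃ ψ : F0 K N, (ψ : LaurentSeries K) = PsiS 2 2 q K ∧
      (ψ : LaurentSeries K) * ModularCurve.qExpand K q (PhiS 2 2 K) = PhiS 2 2 K ∧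
      (∀ B : Bez q M, B.wF ι hq hN ψ * ψ = algebraMap K (F0 K N) (ε * q)) ∧
      ∀ t : F0 K N, (t : LaurentSeries K) = tS K 2 16 →
        IsIntegral (Algebra.adjoin K {t, t⁻¹}) ψ ∧ IsIntegral (Algebra.adjoin K {t, t⁻¹}) ψ⁻¹ := by
  have h := phiData_two (hq.odd_of_ne_two hq2) hM
  exact ⟨_, h.sq, fun ι => h.exists_psi haut2 hq hN ι⟩

/-- (B4) for `p = 3` -/
theorem exists_psi_three (hq : q.Prime) (hq3 : q ≠ 3) (hM : 9 ∣ M) (hN : N = q * M) :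
    ∃ ε : ℤ, ε ^ 2 = 1 ∧ ∀ {K : Type u} [Field K] (ι : K →+* ℂ),
    ∃ ψ : F0 K N, (ψ : LaurentSeries K) = PsiS 3 1 q K ∧
      (ψ : LaurentSeries K) * ModularCurve.qExpand K q (PhiS 3 1 K) = PhiS 3 1 K ∧
      (∀ B : Bez q M, B.wF ι hq hN ψ * ψ = algebraMap K (F0 K N) (ε * q)) ∧
      ∀ t : F0 K N, (t : LaurentSeries K) = tS K 3 3 →
        IsIntegral (Algebra.adjoin K {t, t⁻¹}) ψ ∧ IsIntegral (Algebra.adjoin K {t, t⁻¹}) ψ⁻¹ := by
  have h3 : ¬ 3 ∣ q := fun h => hq3 ((Nat.prime_dvd_prime_iff_eq Nat.prime_three hq).mp h).symm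
  have h := phiData_three h3 hM
  exact ⟨_, h.sq, fun ι => h.exists_psi haut3 hq hN ι⟩

/-- the square root of `1 + 64 / t` -/
theorem exists_T4 (hM : 4 ∣ M) {K : Type u} [Field K] (ι : K →+* ℂ) :
    ∃ T : F0 K M, (T : LaurentSeries K) =
        ModularCurve.coeffMap (Int.castRingHom K) (HahnSeries.ofPowerSeries ℤ ℤ TZ4) ∧
      (T : LaurentSeries K) ^ 2 = 1 + 64 * (tS K 2 16)⁻¹ ∧
      thD (T : LaurentSeries K) * tS K 2 16 = 32 * PhiS 2 2 K ^ 2 :=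
  ⟨T4el ι hM, rfl, T4el_sq, thD_T4el⟩

end Fermat.Agent.CB
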